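import Fermat.Agent.S25.H866.Glue2

/-!
# S25, block DICT: sheaves of modules on a scheme covered by two affine opens

Infrastructure for `Stmt.DictGlue`: quasi-coherent sheaves on `Spec R` and their sections,
and the sheaf attached to module-theoretic gluing data on a scheme with two affine opens.
-/

open CategoryTheory Limits AlgebraicGeometry

universe u

namespace Fermat.Agent.S25.H866

open AlgebraicGeometry.Scheme.Modules

section Affine

variable {R : CommRingCat.{u}}

/-- On global sections, `moduleSpecΓFunctor.map f` is `f.app ⊤`. -/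
lemma moduleSpecΓFunctor_map_apply {F G : (Spec R).Modules} (f : F ⟶ G)
    (x : moduleSpecΓFunctor.obj F) :
    (moduleSpecΓFunctor.map f).hom x = (f.app ⊤).hom x := rfl

lemma isIso_moduleSpecΓFunctor_map {F G : (Spec R).Modules} (f : F ⟶ G)
    (h : IsIso (f.app ⊤)) : IsIso (moduleSpecΓFunctor.map f) := by
  rw [ConcreteCategory.isIso_iff_bijective]
  have h' := (ConcreteCategory.isIso_iff_bijective (f.app ⊤)).mp h
  exact h'

/-- A morphism of quasi-coherent sheaves on an affine scheme which is an isomorphism on global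
sections is an isomorphism. -/
lemma isIso_of_isIso_app_top {F G : (Spec R).Modules} (hF : IsIso F.fromTildeΓ)
    (hG : IsIso G.fromTildeΓ) (f : F ⟶ G) (h : IsIso (f.app ⊤)) : IsIso f := by
  have h1 : IsIso (moduleSpecΓFunctor.map f) := isIso_moduleSpecΓFunctor_map f h
  have nat : tilde.map (moduleSpecΓFunctor.map f) ≫ G.fromTildeΓ = F.fromTildeΓ ≫ f :=
    fromTildeΓNatTrans.naturality f
  have h2 : IsIso (tilde.map (moduleSpecΓFunctor.map f)) :=
    inferInstanceAs (IsIso ((tilde.functor R).map (moduleSpecΓFunctor.map f)))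
  have h3 : IsIso (F.fromTildeΓ ≫ f) := by
    rw [← nat]
    exact IsIso.comp_isIso' h2 hG
  have := hF
  exact IsIso.of_isIso_comp_left F.fromTildeΓ f

end Affine

section Push

variable {R S : CommRingCat.{u}} (ρ : R ⟶ S) {P : ModuleCat.{u} R} {Q : ModuleCat.{u} S}
  (r : P →ₛₗ[ρ.hom] Q)

lemma presheaf_map_top_leTop (X : Scheme.{u}) (t : Γ(X, ⊤)) :
    (X.presheaf.map (⊤ : X.Opens).leTop.op).hom t = t := by
  have e : X.presheaf.map (⊤ : X.Opens).leTop.op = 𝟙 _ := X.presheaf.map_id _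
  rw [e]
  rfl

/-- Global sections of a pushforward along `Spec ρ` are the global sections. -/
noncomputable def pushTopEquiv (M : (Spec S).Modules) :
    Γ(M, ⊤) ≃+ Γ((pushforward (Spec.map ρ)).obj M, ⊤) :=
  AddEquiv.refl _

lemma smul_pushTopEquiv (M : (Spec S).Modules) (t : R) (x : Γ(M, ⊤)) :
    t • pushTopEquiv ρ M x = pushTopEquiv ρ M (ρ.hom t • x) := by
  have h : ((Spec.map ρ).app ⊤).hom ((Scheme.ΓSpecIso R).inv.hom t) =
      (Scheme.ΓSpecIso S).inv.hom (ρ.hom t) := by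
    have := Scheme.ΓSpecIso_inv_naturality ρ
    exact (congr($this t)).symm
  have e1 : t • pushTopEquiv ρ M x = pushTopEquiv ρ M
      (((Spec.map ρ).app ⊤).hom (((Spec R).presheaf.map (⊤ : (Spec R).Opens).leTop.op).hom
        ((Scheme.ΓSpecIso R).inv.hom t)) • (show Γ(M, (Spec.map ρ) ⁻¹ᵁ ⊤) from x)) := rfl
  have e2 : ρ.hom t • x =
      (((Spec S).presheaf.map (⊤ : (Spec S).Opens).leTop.op).hom
        ((Scheme.ΓSpecIso S).inv.hom (ρ.hom t))) • x := rfl
  rw [e1, e2, presheaf_map_top_leTop, presheaf_map_top_leTop, h]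
  rfl

/-- `tilde.toOpen Q U` as a linear map to `Γ(Q~, U)`. -/
noncomputable def toSec (Q : ModuleCat.{u} S) (U : (Spec S).Opens) : Q →ₗ[S] Γ(tilde Q, U) :=
  (tilde.toOpen Q U).hom

/-- `tilde.toOpen Q ⊤` as a linear map to `Γ(Q~, ⊤)`. -/
noncomputable def toTop (Q : ModuleCat.{u} S) : Q →ₗ[S] Γ(tilde Q, ⊤) :=
  toSec Q ⊤

lemma toTop_bijective (Q : ModuleCat.{u} S) : Function.Bijective (toTop Q) :=
  (ConcreteCategory.isIso_iff_bijective (tilde.toOpen Q ⊤)).mp inferInstance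

lemma toSec_eq_res (Q : ModuleCat.{u} S) (U : (Spec S).Opens) (q : Q) :
    toSec Q U q = ((tilde Q).presheaf.map (homOfLE (le_top : U ≤ ⊤)).op).hom (toTop Q q) := rfl

/-- The `R`-linear map `P → Γ(Spec R, (Spec ρ)_* Q~)` induced by a `ρ`-semilinear map `P → Q`. -/
noncomputable def toPushΓLin : P →ₗ[R] Γ((pushforward (Spec.map ρ)).obj (tilde Q), ⊤) where
  toFun p := pushTopEquiv ρ (tilde Q) (toTop Q (r p))
  map_add' p q := by
    simp only [_root_.map_add]
  map_smul' t p := by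
    rw [RingHom.id_apply, smul_pushTopEquiv, ← LinearMap.map_smul, r.map_smulₛₗ]

/-- `toPushΓLin` as a morphism of modules. -/
noncomputable def toPushΓ :
    P ⟶ moduleSpecΓFunctor.obj ((pushforward (Spec.map ρ)).obj (tilde Q)) :=
  (ModuleCat.ofHom (toPushΓLin ρ r) :)

/-- The morphism `P~ ⟶ (Spec ρ)_* Q~` induced by a `ρ`-semilinear map `P → Q`. -/
noncomputable def tildePush : tilde P ⟶ (pushforward (Spec.map ρ)).obj (tilde Q) :=
  (tilde.adjunction.homEquiv P _).symm (toPushΓ ρ r)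

/-- A morphism out of `P~` is computed on global sections by the adjoint map. -/
lemma homEquiv_symm_app_top {G : (Spec R).Modules} (g : P ⟶ moduleSpecΓFunctor.obj G) (p : P) :
    (((tilde.adjunction.homEquiv P G).symm g).app ⊤).hom (toTop P p) = g.hom p := by
  rw [Adjunction.homEquiv_counit]
  have h1 := congr($(tilde.toOpen_map_app g ⊤) p)
  have h2 := congr($(toOpen_fromTildeΓ_app G ⊤) (g.hom p))
  have h3 : ((modulesSpecToSheaf.obj G).1.map
      (homOfLE (le_top : (⊤ : (Spec R).Opens) ≤ ⊤)).op).hom (g.hom p) = g.hom p := by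
    have e : (modulesSpecToSheaf.obj G).1.map
        (homOfLE (le_top : (⊤ : (Spec R).Opens) ≤ ⊤)).op = 𝟙 _ :=
      (modulesSpecToSheaf.obj G).1.map_id _
    rw [e]
    rfl
  rw [h3] at h2
  refine Eq.trans ?_ h2
  refine Eq.trans ?_ (congrArg
    (fun z => ((modulesSpecToSheaf.map G.fromTildeΓ).hom.app (Opposite.op ⊤)).hom z) h1)
  rfl

lemma tildePush_app_top (p : P) :
    ((tildePush ρ r).app ⊤).hom (toTop P p) = pushTopEquiv ρ (tilde Q) (toTop Q (r p)) :=
  homEquiv_symm_app_top (toPushΓ ρ r) p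

variable [IsOpenImmersion (Spec.map ρ)]

/-- The morphism `(P~)|_{Spec S} ⟶ Q~` induced by a `ρ`-semilinear map `P → Q`, for
`Spec ρ` an open immersion. -/
noncomputable def tildeRestrict : (restrictFunctor (Spec.map ρ)).obj (tilde P) ⟶ tilde Q :=
  (restrictFunctor (Spec.map ρ)).map (tildePush ρ r) ≫
    (restrictAdjunction (Spec.map ρ)).counit.app (tilde Q)

lemma tildeRestrict_app (V : (Spec S).Opens) :
    (tildeRestrict ρ r).app V = (tildePush ρ r).app ((Spec.map ρ) ''ᵁ V) ≫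
      (tilde Q).presheaf.map (eqToHom ((Spec.map ρ).preimage_image_eq V).symm).op := rfl

lemma tildeRestrict_app_top (p : P) :
    ((tildeRestrict ρ r).app ⊤).hom (toSec P ((Spec.map ρ) ''ᵁ ⊤) p) = toTop Q (r p) := by
  rw [tildeRestrict_app, toSec_eq_res]
  have nat := hom_naturality (tildePush ρ r)
    (homOfLE (le_top : (Spec.map ρ) ''ᵁ (⊤ : (Spec S).Opens) ≤ ⊤))
  have h1 := congr($nat (toTop P p))
  have h2 : ((tildePush ρ r).app ((Spec.map ρ) ''ᵁ ⊤)).hom
      (((tilde P).presheaf.map (homOfLE (le_top : (Spec.map ρ) ''ᵁ (⊤ : (Spec S).Opens) ≤ ⊤)).op).hom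
        (toTop P p)) =
      (((pushforward (Spec.map ρ)).obj (tilde Q)).presheaf.map
        (homOfLE (le_top : (Spec.map ρ) ''ᵁ (⊤ : (Spec S).Opens) ≤ ⊤)).op).hom
        (((tildePush ρ r).app ⊤).hom (toTop P p)) := h1
  rw [tildePush_app_top] at h2
  refine Eq.trans (congrArg (fun z => ((tilde Q).presheaf.map
    (eqToHom ((Spec.map ρ).preimage_image_eq ⊤).symm).op).hom z) h2) ?_
  have h3 : ∀ (f : (⊤ : (Spec S).Opens) ⟶ ⊤) (x : Γ(tilde Q, ⊤)),
      ((tilde Q).presheaf.map f.op).hom x = x := by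
    intro f x
    have e : f = 𝟙 _ := Subsingleton.elim _ _
    have e' : (tilde Q).presheaf.map f.op = 𝟙 _ := by
      rw [e]
      exact (tilde Q).presheaf.map_id _
    rw [e']
    rfl
  refine Eq.trans ?_ (h3 (𝟙 _) _)
  have key : (tilde Q).presheaf.map ((TopologicalSpace.Opens.map (Spec.map ρ).base).map
        (homOfLE (le_top : (Spec.map ρ) ''ᵁ (⊤ : (Spec S).Opens) ≤ ⊤))).op ≫
      (tilde Q).presheaf.map (eqToHom ((Spec.map ρ).preimage_image_eq ⊤).symm).op =
      (tilde Q).presheaf.map (𝟙 (⊤ : (Spec S).Opens)).op :=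
    presheaf_map_comp' (tilde Q) _ _ _
  exact ConcreteCategory.congr_hom key (toTop Q (r p))

lemma toSec_surj {U : (Spec R).Opens} {f : R} (hU : U = PrimeSpectrum.basicOpen f)
    (x : Γ(tilde P, U)) : ∃ (p : P) (n : ℕ), f ^ n • x = toSec P U p := by
  subst hU
  obtain ⟨⟨p, ⟨_, n, rfl⟩⟩, h⟩ := IsLocalizedModule.surj (Submonoid.powers f)
    (tilde.toOpen P (PrimeSpectrum.basicOpen f)).hom x
  exact ⟨p, n, h⟩

lemma toSec_ker {U : (Spec R).Opens} {f : R} (hU : U = PrimeSpectrum.basicOpen f)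
    (p : P) (hp : toSec P U p = 0) : ∃ n : ℕ, f ^ n • p = 0 := by
  subst hU
  obtain ⟨⟨_, n, rfl⟩, h⟩ := (IsLocalizedModule.eq_zero_iff (Submonoid.powers f)
    (tilde.toOpen P (PrimeSpectrum.basicOpen f)).hom).mp hp
  exact ⟨n, h⟩

lemma smul_pow_injective {U : (Spec R).Opens} {f : R} (hU : U = PrimeSpectrum.basicOpen f)
    (n : ℕ) (x : Γ(tilde P, U)) (hx : f ^ n • x = 0) : x = 0 := by
  have h := ((tilde P).isSMulRegular_of_le_basicOpen (le_of_eq hU)).pow n
  exact h (show f ^ n • x = f ^ n • 0 by rw [hx, smul_zero])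

/-- `Hom.app` is linear over the base ring. -/
lemma app_smul_Spec {M N : (Spec S).Modules} (φ : M ⟶ N) (U : (Spec S).Opens) (s : S)
    (x : Γ(M, U)) : (φ.app U).hom (s • x) = s • (φ.app U).hom x := by
  rw [smul_Spec_def, smul_Spec_def]
  exact Scheme.Modules.Hom.app_smul φ _ x

/-- `ρ`-semilinearity of `tildeRestrict` on sections. -/
lemma tildeRestrict_app_smul (V : (Spec S).Opens) (t : R)
    (x : Γ(tilde P, (Spec.map ρ) ''ᵁ V)) :
    ((tildeRestrict ρ r).app V).hom (t • x) = ρ.hom t • ((tildeRestrict ρ r).app V).hom x := by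
  have h := restrictAppIso_smul_Spec (M := tilde P) ρ (U := V) t x
  have h' : t • x = (show Γ((tilde P).restrict (Spec.map ρ), V) from ρ.hom t • (show
      Γ((tilde P).restrict (Spec.map ρ), V) from x)) := h.symm
  rw [h']
  exact app_smul_Spec (tildeRestrict ρ r) V (ρ.hom t) x

/-- Elementary form of "`r : P → Q` is the localization of `P` at `f`", for a `ρ`-semilinear
map `r`. -/
structure IsLocAt (f : R) (r : P →ₛₗ[ρ.hom] Q) : Prop where
  unit : IsUnit (ρ.hom f)
  surj : ∀ q : Q, ∃ (p : P) (n : ℕ), (ρ.hom f) ^ n • q = r p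
  ker : ∀ p : P, r p = 0 → ∃ n : ℕ, f ^ n • p = 0

/-- `tildeRestrict` on global sections, as a map out of `Γ(P~, image of Spec S)`. -/
noncomputable def tildeRestrictTop : Γ(tilde P, (Spec.map ρ) ''ᵁ ⊤) →+ Γ(tilde Q, ⊤) :=
  ((tildeRestrict ρ r).app ⊤).hom

lemma tildeRestrictTop_toSec (p : P) :
    tildeRestrictTop ρ r (toSec P ((Spec.map ρ) ''ᵁ ⊤) p) = toTop Q (r p) :=
  tildeRestrict_app_top ρ r p

lemma tildeRestrictTop_smul (t : R) (x : Γ(tilde P, (Spec.map ρ) ''ᵁ ⊤)) :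
    tildeRestrictTop ρ r (t • x) = ρ.hom t • tildeRestrictTop ρ r x :=
  tildeRestrict_app_smul ρ r ⊤ t x

lemma tildeRestrictTop_bijective (f : R)
    (hU : (Spec.map ρ) ''ᵁ ⊤ = PrimeSpectrum.basicOpen f) (h : IsLocAt ρ f r) :
    Function.Bijective (tildeRestrictTop ρ r) := by
  have gsm := tildeRestrictTop_smul ρ r
  have gpow : ∀ (n : ℕ) (x : Γ(tilde P, (Spec.map ρ) ''ᵁ ⊤)),
      tildeRestrictTop ρ r (f ^ n • x) = (ρ.hom f) ^ n • tildeRestrictTop ρ r x := by
    intro n x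
    rw [gsm, map_pow]
  have gtop := tildeRestrictTop_toSec ρ r
  constructor
  · rw [injective_iff_map_eq_zero]
    intro x hx
    obtain ⟨p, n, hp⟩ := toSec_surj hU x
    have h1 : toTop Q (r p) = 0 := by
      rw [← gtop, ← hp, gpow, hx, smul_zero]
    have h2 : r p = 0 := (toTop_bijective Q).injective (h1.trans (map_zero _).symm)
    obtain ⟨m, hm⟩ := h.ker p h2
    have h3 : f ^ m • toSec P ((Spec.map ρ) ''ᵁ ⊤) p = 0 := by
      rw [← LinearMap.map_smul, hm, map_zero]
    have h4 : f ^ (m + n) • x = 0 := by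
      rw [pow_add, mul_smul, hp, h3]
    exact smul_pow_injective hU _ x h4
  · intro y
    obtain ⟨q, rfl⟩ := (toTop_bijective Q).surjective y
    obtain ⟨p, n, hpn⟩ := h.surj q
    have hu := ((tilde P).isUnit_algebraMap_end_of_le_basicOpen f (le_of_eq hU)).pow n
    rw [Module.End.isUnit_iff] at hu
    obtain ⟨x, hx⟩ := hu.surjective (toSec P ((Spec.map ρ) ''ᵁ ⊤) p)
    have hx' : f ^ n • x = toSec P ((Spec.map ρ) ''ᵁ ⊤) p := by
      rw [← hx, ← map_pow]
      rfl
    refine ⟨x, ?_⟩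
    have h5 : (ρ.hom f) ^ n • tildeRestrictTop ρ r x = (ρ.hom f) ^ n • toTop Q q := by
      rw [← gpow, hx', gtop, ← hpn, LinearMap.map_smul]
    exact (h.unit.pow n).smul_left_cancel.mp h5

lemma tildeRestrict_app_top_bijective (f : R)
    (hU : (Spec.map ρ) ''ᵁ ⊤ = PrimeSpectrum.basicOpen f) (h : IsLocAt ρ f r) :
    Function.Bijective ((tildeRestrict ρ r).app ⊤).hom :=
  tildeRestrictTop_bijective ρ r f hU h

lemma isIso_tildeRestrict (f : R)
    (hU : (Spec.map ρ) ''ᵁ ⊤ = PrimeSpectrum.basicOpen f) (h : IsLocAt ρ f r) :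
    IsIso (tildeRestrict ρ r) := by
  refine isIso_of_isIso_app_top ?_ ?_ _ ?_
  · exact Scheme.Modules.isIso_fromTildeΓ_of_isQuasicoherent _
  · exact Scheme.Modules.isIso_fromTildeΓ_of_isQuasicoherent _
  · rw [ConcreteCategory.isIso_iff_bijective]
    exact tildeRestrict_app_top_bijective ρ r f hU h

end Push

end Fermat.Agent.S25.H866
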