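import Fermat.Agent.S25.DefsDict
import Fermat.Agent.S25.H205.Box

/-!
# S25, block DICT: the ring of functions on the preimage in `C_A` of an affine open of `C`

For an affine open `U ⊆ C` with `i : Γ(C, U) ≃+* B` (compatible with the `k`-structures),
`boxRingIso : Γ(C_A, pr₁⁻¹ U) ≅ A ⊗[k] B`, sending `baseToSections a` to `a ⊗ 1` and
`curveToSections f` to `1 ⊗ i f`.
-/

set_option autoImplicit false

open CategoryTheory CategoryTheory.Limits AlgebraicGeometry AlgebraicGeometry.RelPicard
  NeronModelInfra
open scoped TensorProduct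

universe u

namespace Fermat.Agent.S25.H866

section BoxRing

variable {k : Type u} [Field k] {C : Scheme.{u}} (c : C ⟶ Spec (CommRingCat.of k))
  (A : Type u) [CommRing A] [Algebra k A]
  {U : C.Opens} (hU : IsAffineOpen U) {B : Type u} [CommRing B] [Algebra k B]
  (i : Γ(C, U) ≃+* B) (hi : ∀ a : k, i (sectionsStr c U a) = algebraMap k B a)

include hU in
/-- The preimage of an affine open of `C` in `C_A` is affine. -/
lemma isAffineOpen_preimageOpen : IsAffineOpen (preimageOpen (c := c) A U) :=
  H205.isAffineOpen_fst_preimage c (specStr k A) hU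

include hU in
/-- The sections over the preimage of `U` form the pushout of `Γ(C, U)` and `Γ(Spec A, ⊤)`. -/
lemma isPushout_preimageOpen :
    IsPushout (c.appLE ⊤ U (by simp)) ((specStr k A).appLE ⊤ ⊤ (by simp))
      ((pullback.fst c (specStr k A)).appLE U (preimageOpen (c := c) A U) le_rfl)
      ((pullback.snd c (specStr k A)).appLE ⊤ (preimageOpen (c := c) A U) (by simp)) := by
  have H : IsPullback (pullback.fst c (specStr k A)) (pullback.snd c (specStr k A)) c
    (specStr k A) := IsPullback.of_hasPullback c (specStr k A)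
  have hUY : preimageOpen (c := c) A U =
      (pullback.fst c (specStr k A)) ⁻¹ᵁ U ⊓ (pullback.snd c (specStr k A)) ⁻¹ᵁ ⊤ := by
    simp
  exact (isIso_pushoutSection_iff H (US := ⊤) (UT := ⊤) (UX := U) (by simp) (by simp) hUY).mp
    (isIso_pushoutSection_of_isAffineOpen H (by simp) (by simp) hUY (isAffineOpen_top _)
      (isAffineOpen_top _) hU)

include hi in
lemma boxRing_commf :
    c.appLE ⊤ U (by simp) ≫ i.toCommRingCatIso.hom =
      (Scheme.ΓSpecIso (CommRingCat.of k)).hom ≫ CommRingCat.ofHom (algebraMap k B) := by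
  rw [← Iso.inv_comp_eq]
  ext a
  exact hi a

lemma boxRing_commg :
    (specStr k A).appLE ⊤ ⊤ (by simp) ≫ (Scheme.ΓSpecIso (CommRingCat.of A)).hom =
      (Scheme.ΓSpecIso (CommRingCat.of k)).hom ≫ CommRingCat.ofHom (algebraMap k A) := by
  have h := Scheme.ΓSpecIso_naturality (CommRingCat.ofHom (algebraMap k A))
  rw [← h]
  congr 1

include hU hi in
/-- The pushout square exhibiting `Γ(C_A, pr₁⁻¹ U)` as `A ⊗[k] B`. -/
lemma isPushout_boxRing :
    IsPushout (CommRingCat.ofHom (algebraMap k A)) (CommRingCat.ofHom (algebraMap k B))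
      ((Scheme.ΓSpecIso (CommRingCat.of A)).inv ≫
        (pullback.snd c (specStr k A)).appLE ⊤ (preimageOpen (c := c) A U) (by simp))
      (i.toCommRingCatIso.inv ≫
        (pullback.fst c (specStr k A)).appLE U (preimageOpen (c := c) A U) le_rfl) :=
  ((isPushout_preimageOpen c A hU).of_iso (Scheme.ΓSpecIso (CommRingCat.of k))
    i.toCommRingCatIso (Scheme.ΓSpecIso (CommRingCat.of A)) (Iso.refl _)
    (boxRing_commf c i hi) (boxRing_commg A)
    (by rw [Iso.refl_hom, Category.comp_id, Iso.hom_inv_id_assoc])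
    (by rw [Iso.refl_hom, Category.comp_id, Iso.hom_inv_id_assoc])).flip

/-- The ring isomorphism `Γ(C_A, pr₁⁻¹ U) ≅ A ⊗[k] B`. -/
noncomputable def boxRingIso :
    Γ(pullback c (specStr k A), preimageOpen (c := c) A U) ≅ CommRingCat.of (A ⊗[k] B) :=
  (isPushout_boxRing c A hU i hi).isoIsPushout _ _ (CommRingCat.isPushout_tensorProduct k A B)

lemma boxRingIso_base (a : A) :
    (boxRingIso c A hU i hi).hom.hom (baseToSections (c := c) A (preimageOpen (c := c) A U) a) =
      a ⊗ₜ[k] (1 : B) := by
  have h := IsPushout.inl_isoIsPushout_hom _ _ (isPushout_boxRing c A hU i hi)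
    (CommRingCat.isPushout_tensorProduct k A B)
  exact congr($h a)

lemma boxRingIso_curve (f : Γ(C, U)) :
    (boxRingIso c A hU i hi).hom.hom (curveToSections (c := c) A U f) =
      (1 : A) ⊗ₜ[k] i f := by
  have h := IsPushout.inr_isoIsPushout_hom _ _ (isPushout_boxRing c A hU i hi)
    (CommRingCat.isPushout_tensorProduct k A B)
  have h' := congr($h (i f))
  have h2 : (i.toCommRingCatIso.inv ≫ (pullback.fst c (specStr k A)).appLE U
      (preimageOpen (c := c) A U) le_rfl).hom (i f) = curveToSections (c := c) A U f := by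
    change ((pullback.fst c (specStr k A)).appLE U (preimageOpen (c := c) A U) le_rfl).hom
      (i.symm (i f)) = _
    rw [RingEquiv.symm_apply_apply, curveToSections, Scheme.Hom.app_eq_appLE]
  rw [← h2]
  exact h'

end BoxRing

end Fermat.Agent.S25.H866
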