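import Fermat.Agent.S25.H866.AffineGlue
import Fermat.Agent.S25.H206.InvertibleLocal
import Fermat.Agent.S25.H445.InvertibleAffine

/-!
# S25, block DICT: sections of a sheaf of modules in an affine chart, and gluing along two
affine charts

* `chartEquiv`: for an open immersion `j : Spec R ⟶ X` with image `V` and an isomorphism
  `θ : L|_{Spec R} ≅ P~`, the additive equivalence `Γ(L, V) ≃+ P`, with its linearity
  (`chartEquiv_smul`) and compatibility with a smaller chart (`chartEquiv_res`).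
-/

open CategoryTheory Limits AlgebraicGeometry

universe u

namespace Fermat.Agent.S25.H866

open AlgebraicGeometry.Scheme.Modules

section Chart

variable {X : Scheme.{u}} {R : CommRingCat.{u}} (j : Spec R ⟶ X) [IsOpenImmersion j]
  {L : X.Modules} {P : ModuleCat.{u} R} (θ : (restrictFunctor j).obj L ≅ tilde P)
  {V : X.Opens} (hV : j ''ᵁ ⊤ = V)

/-- Sections over equal opens. -/
noncomputable def resEquiv (L : X.Modules) {V W : X.Opens} (h : W = V) : Γ(L, V) ≃+ Γ(L, W) :=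
  (L.presheaf.mapIso (eqToIso h).op).addCommGroupIsoToAddEquiv

lemma resEquiv_apply (L : X.Modules) {V W : X.Opens} (h : W = V) (m : Γ(L, V)) :
    resEquiv L h m = (L.presheaf.map (eqToHom h).op).hom m := rfl

/-- `P ≃ Γ(P~, ⊤)`. -/
noncomputable def topEquiv (P : ModuleCat.{u} R) : P ≃+ Γ(tilde P, ⊤) :=
  AddEquiv.ofBijective (toTop P).toAddMonoidHom (toTop_bijective P)

lemma topEquiv_apply (P : ModuleCat.{u} R) (p : P) : topEquiv P p = toTop P p := rfl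

/-- An isomorphism of sheaves of modules induces additive equivalences on sections. -/
noncomputable def appEquiv {M N : X.Modules} (e : M ≅ N) (W : X.Opens) : Γ(M, W) ≃+ Γ(N, W) :=
  ((sectionsFunctor W).mapIso e).addCommGroupIsoToAddEquiv

lemma appEquiv_apply {M N : X.Modules} (e : M ≅ N) (W : X.Opens) (m : Γ(M, W)) :
    appEquiv e W m = (e.hom.app W).hom m := rfl

/-- The sections over `V = j(Spec R)` of a sheaf whose restriction to the chart `j` is `P~`. -/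
noncomputable def chartEquiv : Γ(L, V) ≃+ P :=
  (resEquiv L hV).trans ((show Γ(L, j ''ᵁ ⊤) ≃+ Γ(tilde P, ⊤) from appEquiv θ ⊤).trans
    (topEquiv P).symm)

lemma toTop_chartEquiv (m : Γ(L, V)) :
    toTop P (chartEquiv j θ hV m) =
      (θ.hom.app ⊤).hom ((L.presheaf.map (eqToHom hV).op).hom m) := by
  rw [← topEquiv_apply]
  exact (topEquiv P).apply_symm_apply _

/-- The pullback of functions along the chart: `Γ(X, V) → R`. -/
noncomputable def chartRing : Γ(X, V) →+* R :=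
  (j.appLE V ⊤ (by rw [← hV]; exact (j.preimage_image_eq ⊤).ge) ≫ (Scheme.ΓSpecIso R).hom).hom

lemma smul_top_Spec {M : (Spec R).Modules} (s : Γ(Spec R, ⊤)) (x : Γ(M, ⊤)) :
    s • x = (Scheme.ΓSpecIso R).hom.hom s • x := by
  rw [smul_Spec_def]
  have h : ((Spec R).presheaf.map (⊤ : (Spec R).Opens).leTop.op).hom
      ((Scheme.ΓSpecIso R).inv.hom ((Scheme.ΓSpecIso R).hom.hom s)) = s := by
    rw [presheaf_map_top_leTop]
    exact congr($((Scheme.ΓSpecIso R).hom_inv_id) s)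
  rw [h]

/-- Linearity of `chartEquiv`. -/
lemma chartEquiv_smul (s : Γ(X, V)) (m : Γ(L, V)) :
    chartEquiv j θ hV (s • m) = chartRing j hV s • chartEquiv j θ hV m := by
  apply (toTop_bijective P).injective
  rw [LinearMap.map_smul, toTop_chartEquiv, toTop_chartEquiv]
  have h1 : (L.presheaf.map (eqToHom hV).op).hom (s • m) =
      (X.presheaf.map (eqToHom hV).op).hom s • (L.presheaf.map (eqToHom hV).op).hom m :=
    Scheme.Modules.map_smul L (eqToHom hV) s m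
  rw [h1]
  -- the section `s` transported to `Spec R`
  have h2 : (j.appIso ⊤).inv.hom ((Scheme.ΓSpecIso R).inv.hom (chartRing j hV s)) =
      (X.presheaf.map (eqToHom hV).op).hom s := by
    have e1 : (Scheme.ΓSpecIso R).inv.hom (chartRing j hV s) =
        (j.appLE V ⊤ (by rw [← hV]; exact (j.preimage_image_eq ⊤).ge)).hom s :=
      congr($((Scheme.ΓSpecIso R).hom_inv_id) _)
    have e2 : (j.appLE V ⊤ (by rw [← hV]; exact (j.preimage_image_eq ⊤).ge)).hom s =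
        (j.appIso ⊤).hom.hom ((X.presheaf.map (eqToHom hV).op).hom s) := by
      rw [Scheme.Hom.appIso_hom']
      exact (congr($(Scheme.Hom.map_appLE j (U := j ''ᵁ ⊤) (V := ⊤) (U' := V)
        (j.preimage_image_eq ⊤).ge (eqToHom hV).op) s)).symm
    rw [e1, e2]
    exact congr($((j.appIso ⊤).hom_inv_id) _)
  rw [← h2]
  have h3 := Scheme.Modules.Hom.app_smul θ.hom ((Scheme.ΓSpecIso R).inv.hom (chartRing j hV s))
    (show Γ((restrictFunctor j).obj L, ⊤) from (L.presheaf.map (eqToHom hV).op).hom m)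
  refine Eq.trans h3 ?_
  rw [smul_top_Spec]
  congr 1
  exact congr($((Scheme.ΓSpecIso R).inv_hom_id) _)

end Chart

section Res

variable {X : Scheme.{u}} {R S : CommRingCat.{u}} (ρ : R ⟶ S) [IsOpenImmersion (Spec.map ρ)]
  (j : Spec R ⟶ X) [IsOpenImmersion j] (j' : Spec S ⟶ X) [IsOpenImmersion j']
  (hw : Spec.map ρ ≫ j = j')
  {L : X.Modules} {P : ModuleCat.{u} R} {Q : ModuleCat.{u} S}
  (θ : (restrictFunctor j).obj L ≅ tilde P) (θ' : (restrictFunctor j').obj L ≅ tilde Q)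
  (r : P →ₛₗ[ρ.hom] Q)

include hw in
lemma image_image_top_eq : j ''ᵁ (Spec.map ρ) ''ᵁ ⊤ = j' ''ᵁ ⊤ := by
  subst hw
  exact (Scheme.Hom.comp_image (Spec.map ρ) j ⊤).symm

/-- Compatibility of `chartEquiv` with passage to a smaller chart. -/
lemma chartEquiv_res
    (hθ : θ'.hom.app ⊤ = L.presheaf.map (eqToHom (image_image_top_eq ρ j j' hw)).op ≫
      θ.hom.app ((Spec.map ρ) ''ᵁ ⊤) ≫ (tildeRestrict ρ r).app ⊤)
    {V V' : X.Opens} (hV : j ''ᵁ ⊤ = V) (hV' : j' ''ᵁ ⊤ = V') (hle : V' ≤ V) (m : Γ(L, V)) :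
    chartEquiv j' θ' hV' ((L.presheaf.map (homOfLE hle).op).hom m) =
      r (chartEquiv j θ hV m) := by
  apply (toTop_bijective Q).injective
  rw [toTop_chartEquiv, ← tildeRestrictTop_toSec, toSec_eq_res, toTop_chartEquiv, hθ]
  have nat := hom_naturality θ.hom
    (homOfLE (le_top : (Spec.map ρ) ''ᵁ (⊤ : (Spec S).Opens) ≤ ⊤))
  have nat' := ConcreteCategory.congr_hom nat ((L.presheaf.map (eqToHom hV).op).hom m)
  refine Eq.trans ?_ (congrArg (tildeRestrictTop ρ r) nat')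
  have hfin : j ''ᵁ (Spec.map ρ) ''ᵁ ⊤ ≤ V := by
    rw [image_image_top_eq ρ j j' hw, hV']
    exact hle
  have hA : L.presheaf.map (homOfLE hle).op ≫ L.presheaf.map (eqToHom hV').op ≫
      L.presheaf.map (eqToHom (image_image_top_eq ρ j j' hw)).op =
      L.presheaf.map (eqToHom hV).op ≫ L.presheaf.map (j.opensFunctor.map
        (homOfLE (le_top : (Spec.map ρ) ''ᵁ (⊤ : (Spec S).Opens) ≤ ⊤))).op := by
    rw [presheaf_map_comp' L _ _ (homOfLE hfin).op]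
    rw [presheaf_map_comp' L (eqToHom hV').op _
      (homOfLE ((le_of_eq (image_image_top_eq ρ j j' hw)).trans (le_of_eq hV'))).op]
    exact presheaf_map_comp' L _ _ (homOfLE hfin).op
  exact congrArg (fun z => tildeRestrictTop ρ r ((θ.hom.app ((Spec.map ρ) ''ᵁ ⊤)).hom z))
    (ConcreteCategory.congr_hom hA m)

end Res

/-- Gluing data for a sheaf of modules on a scheme `X` along two affine charts
`j₀ : Spec R₀ ⟶ X`, `j₁ : Spec R₁ ⟶ X` whose intersection is the affine chart `Spec R₀₁`,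
a basic open in both: modules `P₀`, `P₁`, `P₀₁` and semilinear localization maps
`r₀ : P₀ → P₀₁`, `r₁ : P₁ → P₀₁`. -/
structure AffGlueData (X : Scheme.{u}) where
  R₀ : CommRingCat.{u}
  R₁ : CommRingCat.{u}
  R₀₁ : CommRingCat.{u}
  j₀ : Spec R₀ ⟶ X
  j₁ : Spec R₁ ⟶ X
  ρ₀ : R₀ ⟶ R₀₁
  ρ₁ : R₁ ⟶ R₀₁
  [open₀ : IsOpenImmersion j₀]
  [open₁ : IsOpenImmersion j₁]
  [openρ₀ : IsOpenImmersion (Spec.map ρ₀)]
  [openρ₁ : IsOpenImmersion (Spec.map ρ₁)]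
  w : Spec.map ρ₀ ≫ j₀ = Spec.map ρ₁ ≫ j₁
  hinter : (Spec.map ρ₀ ≫ j₀).opensRange = j₀.opensRange ⊓ j₁.opensRange
  P₀ : ModuleCat.{u} R₀
  P₁ : ModuleCat.{u} R₁
  P₀₁ : ModuleCat.{u} R₀₁
  r₀ : P₀ →ₛₗ[ρ₀.hom] P₀₁
  r₁ : P₁ →ₛₗ[ρ₁.hom] P₀₁
  f₀ : R₀
  f₁ : R₁
  hf₀ : (Spec.map ρ₀) ''ᵁ ⊤ = PrimeSpectrum.basicOpen f₀
  hf₁ : (Spec.map ρ₁) ''ᵁ ⊤ = PrimeSpectrum.basicOpen f₁
  loc₀ : IsLocAt ρ₀ f₀ r₀
  loc₁ : IsLocAt ρ₁ f₁ r₁

namespace AffGlueData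

attribute [instance] open₀ open₁ openρ₀ openρ₁

variable {X : Scheme.{u}} (D : AffGlueData X)

instance isIso_β₀ : IsIso (tildeRestrict D.ρ₀ D.r₀) :=
  isIso_tildeRestrict D.ρ₀ D.r₀ D.f₀ D.hf₀ D.loc₀

instance isIso_β₁ : IsIso (tildeRestrict D.ρ₁ D.r₁) :=
  isIso_tildeRestrict D.ρ₁ D.r₁ D.f₁ D.hf₁ D.loc₁

/-- The gluing isomorphism on the overlap. -/
noncomputable def overlapIso :
    (restrictFunctor (Spec.map D.ρ₀)).obj (tilde D.P₀) ≅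
      (restrictFunctor (Spec.map D.ρ₁)).obj (tilde D.P₁) :=
  asIso (tildeRestrict D.ρ₀ D.r₀) ≪≫ (asIso (tildeRestrict D.ρ₁ D.r₁)).symm

/-- The glued sheaf of modules. -/
noncomputable def glued : X.Modules :=
  glue D.j₀ D.j₁ (Spec.map D.ρ₀) (Spec.map D.ρ₁) D.w (tilde D.P₀) (tilde D.P₁) D.overlapIso

/-- The glued sheaf restricted to the chart `Spec R₀`. -/
noncomputable def θ₀ : (restrictFunctor D.j₀).obj D.glued ≅ tilde D.P₀ :=
  glueIso₀ D.j₀ D.j₁ (Spec.map D.ρ₀) (Spec.map D.ρ₁) D.w (tilde D.P₀) (tilde D.P₁) D.overlapIso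
    D.hinter

/-- The glued sheaf restricted to the chart `Spec R₁`. -/
noncomputable def θ₁ : (restrictFunctor D.j₁).obj D.glued ≅ tilde D.P₁ :=
  glueIso₁ D.j₀ D.j₁ (Spec.map D.ρ₀) (Spec.map D.ρ₁) D.w (tilde D.P₀) (tilde D.P₁) D.overlapIso
    D.hinter

/-- The chart `Spec R₀₁ ⟶ X`. -/
noncomputable def j₀₁ : Spec D.R₀₁ ⟶ X := Spec.map D.ρ₀ ≫ D.j₀

instance : IsOpenImmersion D.j₀₁ := by unfold j₀₁; infer_instance

/-- The glued sheaf restricted to the chart `Spec R₀₁`. -/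
noncomputable def θ₀₁ : (restrictFunctor D.j₀₁).obj D.glued ≅ tilde D.P₀₁ :=
  (restrictFunctorComp (Spec.map D.ρ₀) D.j₀).app D.glued ≪≫
    (restrictFunctor (Spec.map D.ρ₀)).mapIso D.θ₀ ≪≫ asIso (tildeRestrict D.ρ₀ D.r₀)

lemma hw₀ : Spec.map D.ρ₀ ≫ D.j₀ = D.j₀₁ := rfl

lemma hw₁ : Spec.map D.ρ₁ ≫ D.j₁ = D.j₀₁ := D.w.symm

lemma θ₀₁_hom_app_top :
    D.θ₀₁.hom.app ⊤ = D.glued.presheaf.map
        (eqToHom (image_image_top_eq D.ρ₀ D.j₀ D.j₀₁ D.hw₀)).op ≫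
      D.θ₀.hom.app ((Spec.map D.ρ₀) ''ᵁ ⊤) ≫ (tildeRestrict D.ρ₀ D.r₀).app ⊤ := by
  rfl

lemma θ₀₁_hom_app_top' :
    D.θ₀₁.hom.app ⊤ = D.glued.presheaf.map
        (eqToHom (image_image_top_eq D.ρ₁ D.j₁ D.j₀₁ D.hw₁)).op ≫
      D.θ₁.hom.app ((Spec.map D.ρ₁) ''ᵁ ⊤) ≫ (tildeRestrict D.ρ₁ D.r₁).app ⊤ := by
  have hc := glue_compat D.j₀ D.j₁ (Spec.map D.ρ₀) (Spec.map D.ρ₁) D.w (tilde D.P₀) (tilde D.P₁)
    D.overlapIso D.hinter
  have hc' : (restrictFunctor (Spec.map D.ρ₀)).map D.θ₀.hom ≫ tildeRestrict D.ρ₀ D.r₀ =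
      (restrictOverlapIso D.j₀ D.j₁ (Spec.map D.ρ₀) (Spec.map D.ρ₁) D.w D.glued).hom ≫
        (restrictFunctor (Spec.map D.ρ₁)).map D.θ₁.hom ≫ tildeRestrict D.ρ₁ D.r₁ := by
    have h1 : D.overlapIso.hom = tildeRestrict D.ρ₀ D.r₀ ≫ inv (tildeRestrict D.ρ₁ D.r₁) := rfl
    rw [h1] at hc
    have h2 := congrArg (fun ψ => ψ ≫ tildeRestrict D.ρ₁ D.r₁) hc
    simp only [Category.assoc, IsIso.inv_hom_id, Category.comp_id] at h2
    exact h2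
  have hc'' := congrArg (fun ψ => Hom.app ψ ⊤) hc'
  simp only [Hom.comp_app] at hc''
  rw [restrictOverlapIso_hom_app] at hc''
  have hc3 : D.θ₀.hom.app ((Spec.map D.ρ₀) ''ᵁ ⊤) ≫ (tildeRestrict D.ρ₀ D.r₀).app ⊤ =
      D.glued.presheaf.map (eqToHom (image_image_eq D.j₀ D.j₁ (Spec.map D.ρ₀) (Spec.map D.ρ₁)
        D.w ⊤)).op ≫ D.θ₁.hom.app ((Spec.map D.ρ₁) ''ᵁ ⊤) ≫ (tildeRestrict D.ρ₁ D.r₁).app ⊤ :=
    hc''
  calc D.θ₀₁.hom.app ⊤
      = D.glued.presheaf.map (eqToHom (image_image_top_eq D.ρ₀ D.j₀ D.j₀₁ D.hw₀)).op ≫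
          (D.θ₀.hom.app ((Spec.map D.ρ₀) ''ᵁ ⊤) ≫ (tildeRestrict D.ρ₀ D.r₀).app ⊤) :=
        D.θ₀₁_hom_app_top
    _ = D.glued.presheaf.map (eqToHom (image_image_top_eq D.ρ₀ D.j₀ D.j₀₁ D.hw₀)).op ≫
          (D.glued.presheaf.map (eqToHom (image_image_eq D.j₀ D.j₁ (Spec.map D.ρ₀)
            (Spec.map D.ρ₁) D.w ⊤)).op ≫ D.θ₁.hom.app ((Spec.map D.ρ₁) ''ᵁ ⊤) ≫
              (tildeRestrict D.ρ₁ D.r₁).app ⊤) :=
        congrArg (fun ψ => D.glued.presheaf.map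
          (eqToHom (image_image_top_eq D.ρ₀ D.j₀ D.j₀₁ D.hw₀)).op ≫ ψ) hc3
    _ = (D.glued.presheaf.map (eqToHom (image_image_top_eq D.ρ₀ D.j₀ D.j₀₁ D.hw₀)).op ≫
          D.glued.presheaf.map (eqToHom (image_image_eq D.j₀ D.j₁ (Spec.map D.ρ₀)
            (Spec.map D.ρ₁) D.w ⊤)).op) ≫ D.θ₁.hom.app ((Spec.map D.ρ₁) ''ᵁ ⊤) ≫
              (tildeRestrict D.ρ₁ D.r₁).app ⊤ := (Category.assoc _ _ _).symm
    _ = _ := congrArg (fun ψ => ψ ≫ D.θ₁.hom.app ((Spec.map D.ρ₁) ''ᵁ ⊤) ≫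
          (tildeRestrict D.ρ₁ D.r₁).app ⊤) (presheaf_map_comp' D.glued _ _ _)

section Sections

variable {V₀ V₁ V₀₁ : X.Opens} (hV₀ : D.j₀ ''ᵁ ⊤ = V₀) (hV₁ : D.j₁ ''ᵁ ⊤ = V₁)
  (hV₀₁ : D.j₀₁ ''ᵁ ⊤ = V₀₁)

/-- Sections of the glued sheaf over the chart `V₀`. -/
noncomputable def e₀ : Γ(D.glued, V₀) ≃+ D.P₀ := chartEquiv D.j₀ D.θ₀ hV₀

/-- Sections of the glued sheaf over the chart `V₁`. -/
noncomputable def e₁ : Γ(D.glued, V₁) ≃+ D.P₁ := chartEquiv D.j₁ D.θ₁ hV₁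

/-- Sections of the glued sheaf over the overlap `V₀₁`. -/
noncomputable def e₀₁ : Γ(D.glued, V₀₁) ≃+ D.P₀₁ := chartEquiv D.j₀₁ D.θ₀₁ hV₀₁

lemma e₀_smul (s : Γ(X, V₀)) (m : Γ(D.glued, V₀)) :
    D.e₀ hV₀ (s • m) = chartRing D.j₀ hV₀ s • D.e₀ hV₀ m :=
  chartEquiv_smul D.j₀ D.θ₀ hV₀ s m

lemma e₁_smul (s : Γ(X, V₁)) (m : Γ(D.glued, V₁)) :
    D.e₁ hV₁ (s • m) = chartRing D.j₁ hV₁ s • D.e₁ hV₁ m :=
  chartEquiv_smul D.j₁ D.θ₁ hV₁ s m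

lemma e₀₁_smul (s : Γ(X, V₀₁)) (m : Γ(D.glued, V₀₁)) :
    D.e₀₁ hV₀₁ (s • m) = chartRing D.j₀₁ hV₀₁ s • D.e₀₁ hV₀₁ m :=
  chartEquiv_smul D.j₀₁ D.θ₀₁ hV₀₁ s m

lemma e₀₁_res₀ (hle : V₀₁ ≤ V₀) (m : Γ(D.glued, V₀)) :
    D.e₀₁ hV₀₁ ((D.glued.presheaf.map (homOfLE hle).op).hom m) = D.r₀ (D.e₀ hV₀ m) :=
  chartEquiv_res D.ρ₀ D.j₀ D.j₀₁ D.hw₀ D.θ₀ D.θ₀₁ D.r₀ D.θ₀₁_hom_app_top hV₀ hV₀₁ hle m

lemma e₀₁_res₁ (hle : V₀₁ ≤ V₁) (m : Γ(D.glued, V₁)) :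
    D.e₀₁ hV₀₁ ((D.glued.presheaf.map (homOfLE hle).op).hom m) = D.r₁ (D.e₁ hV₁ m) :=
  chartEquiv_res D.ρ₁ D.j₁ D.j₀₁ D.hw₁ D.θ₁ D.θ₀₁ D.r₁ D.θ₀₁_hom_app_top' hV₁ hV₀₁ hle m

end Sections

/-- The pullback of the glued sheaf to the chart `Spec R₁` is `P₁~`. -/
noncomputable def pullbackIso₁ : (Scheme.Modules.pullback D.j₁).obj D.glued ≅ tilde D.P₁ :=
  (restrictFunctorIsoPullback D.j₁).symm.app _ ≪≫ D.θ₁

/-- The pullback of the glued sheaf to the chart `Spec R₀` is `P₀~`. -/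
noncomputable def pullbackIso₀ : (Scheme.Modules.pullback D.j₀).obj D.glued ≅ tilde D.P₀ :=
  (restrictFunctorIsoPullback D.j₀).symm.app _ ≪≫ D.θ₀

end AffGlueData

/-- Invertibility can be checked on two charts. -/
theorem isInvertible_of_two_charts {X U₀ U₁ : Scheme.{u}} (M : X.Modules) (j₀ : U₀ ⟶ X)
    (j₁ : U₁ ⟶ X) [IsOpenImmersion j₀] [IsOpenImmersion j₁]
    (hcov : ∀ x : X, x ∈ Set.range j₀ ∨ x ∈ Set.range j₁)
    (h₀ : Scheme.Modules.IsInvertible ((Scheme.Modules.pullback j₀).obj M))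
    (h₁ : Scheme.Modules.IsInvertible ((Scheme.Modules.pullback j₁).obj M)) :
    Scheme.Modules.IsInvertible M := by
  refine H206.isInvertible_of_openImmersions M fun x => ?_
  rcases hcov x with ⟨y, rfl⟩ | ⟨y, rfl⟩
  · obtain ⟨V, hyV, ⟨t⟩⟩ := h₀.1 y
    exact ⟨V.toScheme, V.ι ≫ j₀, inferInstance, ⟨⟨y, hyV⟩, rfl⟩,
      ⟨((Scheme.Modules.pullbackComp V.ι j₀).app M).symm ≪≫ t⟩⟩
  · obtain ⟨V, hyV, ⟨t⟩⟩ := h₁.1 y
    exact ⟨V.toScheme, V.ι ≫ j₁, inferInstance, ⟨⟨y, hyV⟩, rfl⟩,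
      ⟨((Scheme.Modules.pullbackComp V.ι j₁).app M).symm ≪≫ t⟩⟩

/-- The glued sheaf is invertible if the modules on the two charts are, and the charts
cover `X`. -/
theorem AffGlueData.isInvertible_glued {X : Scheme.{u}} (D : AffGlueData X)
    (hcov : ∀ x : X, x ∈ Set.range D.j₀ ∨ x ∈ Set.range D.j₁)
    [Module.Invertible D.R₀ D.P₀] [Module.Invertible D.R₁ D.P₁] :
    Scheme.Modules.IsInvertible D.glued :=
  isInvertible_of_two_charts D.glued D.j₀ D.j₁ hcov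
    (H206.isInvertible_of_iso D.pullbackIso₀.symm (H445.isInvertible_tilde D.P₀))
    (H206.isInvertible_of_iso D.pullbackIso₁.symm (H445.isInvertible_tilde D.P₁))

end Fermat.Agent.S25.H866
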