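import Fermat.Agent.S25.H866.BoxRing
import Fermat.Agent.S25.H866.ChartGlue

/-!
# S25, block DICT: the affine charts `Spec (A ⊗[k] B) ⟶ C_A`

For an affine open `U ⊆ C` with `i : Γ(C, U) ≃+* B`, the chart
`chartMap : Spec (A ⊗[k] B) ⟶ C_A`, an open immersion onto `pr₁⁻¹ U`, its compatibility with
the two projections and with restriction to smaller affine opens, and the induced ring map
`chartRing = boxRingIso`.
-/

set_option autoImplicit false

open CategoryTheory CategoryTheory.Limits AlgebraicGeometry AlgebraicGeometry.RelPicard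
  NeronModelInfra
open scoped TensorProduct

universe u

namespace Fermat.Agent.S25.H866

section General

/-- The ring map of the chart `Spec R ≅ Spec Γ(X, V) ⟶ X` of an affine open `V`. -/
lemma chartRing_fromSpec {X : Scheme.{u}} {V : X.Opens} (hV : IsAffineOpen V)
    {R : CommRingCat.{u}} (ψ : Γ(X, V) ≅ R)
    (hV' : (Spec.map ψ.hom ≫ hV.fromSpec) ''ᵁ ⊤ = V) (s : Γ(X, V)) :
    chartRing (Spec.map ψ.hom ≫ hV.fromSpec) hV' s = ψ.hom.hom s := by
  have h1 : (Spec.map ψ.hom ≫ hV.fromSpec).appLE V ⊤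
      (by intro x _; exact hV'.le ⟨x, trivial, rfl⟩) =
      hV.fromSpec.appLE V ⊤ (by rw [hV.fromSpec_preimage_self]) ≫
        (Spec.map ψ.hom).appLE ⊤ ⊤ (by simp) :=
    (Scheme.Hom.appLE_comp_appLE _ _ _ _ _ _ _).symm
  have h2 : hV.fromSpec.appLE V ⊤ (by rw [hV.fromSpec_preimage_self]) =
      (Scheme.ΓSpecIso Γ(X, V)).inv := by
    rw [Scheme.Hom.appLE, hV.fromSpec_app_self, Category.assoc, ← Functor.map_comp]
    have : ((eqToHom hV.fromSpec_preimage_self).op ≫
        (homOfLE (by rw [hV.fromSpec_preimage_self] :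
          (⊤ : (Spec Γ(X, V)).Opens) ≤ hV.fromSpec ⁻¹ᵁ V)).op) = 𝟙 _ := Subsingleton.elim _ _
    rw [this, CategoryTheory.Functor.map_id, Category.comp_id]
  have h3 : (Spec.map ψ.hom).appLE ⊤ ⊤ (by simp) = (Spec.map ψ.hom).appTop :=
    (Scheme.Hom.app_eq_appLE _).symm
  have h4 : (Scheme.ΓSpecIso Γ(X, V)).inv ≫ (Spec.map ψ.hom).appTop ≫ (Scheme.ΓSpecIso R).hom =
      ψ.hom := by
    rw [Scheme.ΓSpecIso_naturality, Iso.inv_hom_id_assoc]
  unfold chartRing
  rw [h1, h2, h3, Category.assoc, h4]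

end General

section OneChart

variable {k : Type u} [Field k] {C : Scheme.{u}} (c : C ⟶ Spec (CommRingCat.of k))
  (A : Type u) [CommRing A] [Algebra k A]
  {U : C.Opens} (hU : IsAffineOpen U) {B : Type u} [CommRing B] [Algebra k B]
  (i : Γ(C, U) ≃+* B) (hi : ∀ a : k, i (sectionsStr c U a) = algebraMap k B a)

/-- The chart `Spec (A ⊗[k] B) ⟶ C_A` over the affine open `U` of `C`. -/
noncomputable def chartMap :
    Spec (CommRingCat.of (A ⊗[k] B)) ⟶ pullback c (specStr k A) :=
  Spec.map (boxRingIso c A hU i hi).hom ≫ (isAffineOpen_preimageOpen c A hU).fromSpec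

instance isOpenImmersion_chartMap : IsOpenImmersion (chartMap c A hU i hi) := by
  unfold chartMap
  infer_instance

lemma chartMap_opensRange :
    (chartMap c A hU i hi).opensRange = preimageOpen (c := c) A U := by
  unfold chartMap
  rw [Scheme.Hom.opensRange_comp_of_isIso, IsAffineOpen.opensRange_fromSpec]

lemma chartMap_image_top :
    (chartMap c A hU i hi) ''ᵁ ⊤ = preimageOpen (c := c) A U := by
  rw [Scheme.Hom.image_top_eq_opensRange, chartMap_opensRange]

/-- The chart composed with the projection to `Spec A`. -/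
lemma chartMap_snd :
    chartMap c A hU i hi ≫ pullback.snd c (specStr k A) =
      Spec.map (CommRingCat.ofHom
        (Algebra.TensorProduct.includeLeftRingHom : A →+* A ⊗[k] B)) := by
  have h1 := IsAffineOpen.SpecMap_appLE_fromSpec (pullback.snd c (specStr k A))
    (isAffineOpen_top (Spec (CommRingCat.of A))) (isAffineOpen_preimageOpen c A hU)
    (by simp : preimageOpen (c := c) A U ≤ (pullback.snd c (specStr k A)) ⁻¹ᵁ ⊤)
  have h2 := IsPushout.inl_isoIsPushout_hom _ _ (isPushout_boxRing c A hU i hi)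
    (CommRingCat.isPushout_tensorProduct k A B)
  unfold chartMap
  rw [Category.assoc, ← h1, IsAffineOpen.fromSpec_top, Scheme.isoSpec_Spec_inv,
    ← Spec.map_comp, ← Spec.map_comp]
  congr 1

/-- The chart composed with the projection to `C`. -/
lemma chartMap_fst :
    chartMap c A hU i hi ≫ pullback.fst c (specStr k A) =
      Spec.map (i.toCommRingCatIso.hom ≫ CommRingCat.ofHom
        (Algebra.TensorProduct.includeRight.toRingHom : B →+* A ⊗[k] B)) ≫ hU.fromSpec := by
  have h1 := IsAffineOpen.SpecMap_appLE_fromSpec (pullback.fst c (specStr k A))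
    hU (isAffineOpen_preimageOpen c A hU)
    (le_rfl : preimageOpen (c := c) A U ≤ (pullback.fst c (specStr k A)) ⁻¹ᵁ U)
  have h2 := IsPushout.inr_isoIsPushout_hom _ _ (isPushout_boxRing c A hU i hi)
    (CommRingCat.isPushout_tensorProduct k A B)
  unfold chartMap
  rw [Category.assoc, ← h1, ← Category.assoc, ← Spec.map_comp]
  congr 2
  rw [← h2, ← Category.assoc, ← Category.assoc, Iso.hom_inv_id, Category.id_comp]
  rfl

lemma chartRing_chartMap (s : Γ(pullback c (specStr k A), preimageOpen (c := c) A U)) :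
    chartRing (chartMap c A hU i hi) (chartMap_image_top c A hU i hi) s =
      (boxRingIso c A hU i hi).hom.hom s :=
  chartRing_fromSpec (isAffineOpen_preimageOpen c A hU) (boxRingIso c A hU i hi) _ s

lemma chartRing_chartMap_base (a : A) :
    chartRing (chartMap c A hU i hi) (chartMap_image_top c A hU i hi)
      (baseToSections (c := c) A (preimageOpen (c := c) A U) a) = a ⊗ₜ[k] (1 : B) := by
  rw [chartRing_chartMap, boxRingIso_base]

lemma chartRing_chartMap_curve (f : Γ(C, U)) :
    chartRing (chartMap c A hU i hi) (chartMap_image_top c A hU i hi)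
      (curveToSections (c := c) A U f) = (1 : A) ⊗ₜ[k] i f := by
  rw [chartRing_chartMap, boxRingIso_curve]

end OneChart

section Tensor

variable {k : Type u} [Field k] (A : Type u) [CommRing A] [Algebra k A]

/-- (copied from helper190, `H190/CurveBridge.lean`) -/
theorem algebraMap_tensor_tmul (B B' : Type u) [CommRing B] [CommRing B'] [Algebra k B]
    [Algebra k B'] [Algebra B B'] [IsScalarTower k B B'] (a : A) (b : B) :
    algebraMap (A ⊗[k] B) (A ⊗[k] B') (a ⊗ₜ[k] b) = a ⊗ₜ[k] algebraMap B B' b := by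
  show (tensorMapRight k A B B') (a ⊗ₜ[k] b) = _
  simp [tensorMapRight]

/-- `A ⊗ B'` is the localization of `A ⊗ B` away from `1 ⊗ x` if `B'` is the localization of `B`
away from `x`. (copied from helper190, `H190/CurveBridge.lean`) -/
theorem away_tensor (B B' : Type u) [CommRing B] [CommRing B'] [Algebra k B]
    [Algebra k B'] [Algebra B B'] [IsScalarTower k B B'] (x : B) [IsLocalization.Away x B'] :
    IsLocalization.Away ((1 : A) ⊗ₜ[k] x) (A ⊗[k] B') := by
  have H : (algebraMap (A ⊗[k] B) (A ⊗[k] B')).comp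
      (Algebra.TensorProduct.includeRight (R := k) (A := A) (B := B)).toRingHom =
      (Algebra.TensorProduct.includeRight (R := k) (A := A) (B := B')).toRingHom.comp
        (algebraMap B B') := by
    ext b
    simp [algebraMap_tensor_tmul]
  have h := IsLocalization.tensorProduct_tensorProduct_right k A (Submonoid.powers x) B' H
  have hm : (Submonoid.powers x).map
      (Algebra.TensorProduct.includeRight (R := k) (A := A) (B := B)) =
      Submonoid.powers ((1 : A) ⊗ₜ[k] x) := by
    rw [Submonoid.map_powers]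
    rfl
  rw [hm] at h
  exact h

end Tensor

section Res

variable {k : Type u} [Field k] {C : Scheme.{u}} (c : C ⟶ Spec (CommRingCat.of k))
  (A : Type u) [CommRing A] [Algebra k A]

lemma res_baseToSections {V V' : (pullback c (specStr k A)).Opens} (h : V' ≤ V) (a : A) :
    ((pullback c (specStr k A)).presheaf.map (homOfLE h).op).hom
      (baseToSections (c := c) A V a) = baseToSections (c := c) A V' a := by
  unfold baseToSections
  simp only [CommRingCat.hom_comp, RingHom.comp_apply]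
  rw [← RingHom.comp_apply, ← CommRingCat.hom_comp, ← Functor.map_comp]
  rfl

lemma res_curveToSections {U U' : C.Opens} (h : U' ≤ U) (f : Γ(C, U)) :
    ((pullback c (specStr k A)).presheaf.map
      (homOfLE ((pullback.fst c (specStr k A)).preimage_mono h)).op).hom
        (curveToSections (c := c) A U f) =
      curveToSections (c := c) A U' (resRing h f) := by
  have nat := (pullback.fst c (specStr k A)).naturality (homOfLE h).op
  exact (congr($nat f)).symm

variable {U U' : C.Opens} (hU : IsAffineOpen U) (hU' : IsAffineOpen U') (hle : U' ≤ U)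
  {B B' : Type u} [CommRing B] [Algebra k B] [CommRing B'] [Algebra k B'] [Algebra B B']
  [IsScalarTower k B B']
  (i : Γ(C, U) ≃+* B) (hi : ∀ a : k, i (sectionsStr c U a) = algebraMap k B a)
  (i' : Γ(C, U') ≃+* B') (hi' : ∀ a : k, i' (sectionsStr c U' a) = algebraMap k B' a)
  (hres : ∀ f : Γ(C, U), i' (resRing hle f) = algebraMap B B' (i f))

include hres in
/-- The ring isomorphisms `boxRingIso` are compatible with restriction. -/
lemma boxRingIso_res :
    (boxRingIso c A hU i hi).hom ≫ CommRingCat.ofHom (algebraMap (A ⊗[k] B) (A ⊗[k] B')) =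
      (pullback c (specStr k A)).presheaf.map
        (homOfLE ((pullback.fst c (specStr k A)).preimage_mono hle)).op ≫
          (boxRingIso c A hU' i' hi').hom := by
  apply (isPushout_boxRing c A hU i hi).hom_ext
  · ext a
    have e1 : ((Scheme.ΓSpecIso (CommRingCat.of A)).inv ≫
        (pullback.snd c (specStr k A)).appLE ⊤ (preimageOpen (c := c) A U) (by simp)).hom a =
        baseToSections (c := c) A (preimageOpen (c := c) A U) a := rfl
    simp only [CommRingCat.hom_comp, RingHom.comp_apply]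
    erw [e1]
    rw [boxRingIso_base]
    erw [res_baseToSections c A _ a, boxRingIso_base]
    rw [CommRingCat.hom_ofHom, algebraMap_tensor_tmul, map_one]
  · ext b
    have e1 : (i.toCommRingCatIso.inv ≫
        (pullback.fst c (specStr k A)).appLE U (preimageOpen (c := c) A U) le_rfl).hom b =
        curveToSections (c := c) A U (i.symm b) := by
      change ((pullback.fst c (specStr k A)).appLE U (preimageOpen (c := c) A U) le_rfl).hom
        (i.symm b) = _
      rw [curveToSections, Scheme.Hom.app_eq_appLE]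
    simp only [CommRingCat.hom_comp, RingHom.comp_apply]
    erw [e1]
    rw [boxRingIso_curve]
    erw [res_curveToSections c A hle (i.symm b), boxRingIso_curve]
    rw [CommRingCat.hom_ofHom, algebraMap_tensor_tmul, hres, RingEquiv.apply_symm_apply]

include hres in
/-- The charts are compatible with restriction to a smaller affine open. -/
lemma chartMap_res :
    Spec.map (CommRingCat.ofHom (algebraMap (A ⊗[k] B) (A ⊗[k] B'))) ≫ chartMap c A hU i hi =
      chartMap c A hU' i' hi' := by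
  have hfs := (isAffineOpen_preimageOpen c A hU).map_fromSpec (isAffineOpen_preimageOpen c A hU')
    (homOfLE ((pullback.fst c (specStr k A)).preimage_mono hle)).op
  unfold chartMap
  rw [← hfs, ← Category.assoc, ← Category.assoc, ← Spec.map_comp, ← Spec.map_comp,
    boxRingIso_res c A hU hU' hle i hi i' hi' hres]

end Res

section LocAt

variable {R R' : Type u} [CommRing R] [CommRing R'] [Algebra R R'] (x : R)
  [IsLocalization.Away x R'] {N N' : Type u} [AddCommGroup N] [Module R N] [AddCommGroup N']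
  [Module R N'] [Module R' N'] [IsScalarTower R R' N'] (r : N →ₗ[R] N')

/-- A linear map into a module over an algebra, as a semilinear map. -/
def toSemilinear : N →ₛₗ[algebraMap R R'] N' where
  toFun := r
  map_add' := r.map_add
  map_smul' s n := by
    rw [r.map_smul]
    exact (algebraMap_smul R' s (r n)).symm

@[simp] lemma toSemilinear_apply (n : N) : toSemilinear (R' := R') r n = r n := rfl

/-- A base change map along a localization away from `x` is a localization at `x` in the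
elementary sense `IsLocAt`. -/
lemma isLocAt_of_isBaseChange (hr : IsBaseChange R' r) :
    IsLocAt (R := CommRingCat.of R) (S := CommRingCat.of R')
      (P := ModuleCat.of R N) (Q := ModuleCat.of R' N')
      (CommRingCat.ofHom (algebraMap R R')) x (toSemilinear (R' := R') r) := by
  have hloc : IsLocalizedModule (Submonoid.powers x) r :=
    (isLocalizedModule_iff_isBaseChange (Submonoid.powers x) R' r).mpr hr
  refine ⟨IsLocalization.Away.algebraMap_isUnit x, fun q => ?_, fun p hp => ?_⟩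
  · obtain ⟨⟨n, ⟨_, m, rfl⟩⟩, hn⟩ := IsLocalizedModule.surj (Submonoid.powers x) r q
    refine ⟨n, m, ?_⟩
    have h1 : (algebraMap R R' x) ^ m • q = (x ^ m) • q := by
      rw [← map_pow, algebraMap_smul]
    exact h1.trans hn
  · have h0 : r p = r 0 := by rw [map_zero]; exact hp
    obtain ⟨⟨_, m, rfl⟩, hm⟩ := IsLocalizedModule.exists_of_eq (S := Submonoid.powers x) h0
    refine ⟨m, ?_⟩
    rw [smul_zero] at hm
    exact hm

end LocAt

lemma opensRange_congr {X Y : Scheme.{u}} {f g : X ⟶ Y} [IsOpenImmersion f] [IsOpenImmersion g]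
    (h : f = g) : f.opensRange = g.opensRange := by
  subst h
  rfl

section CurveData

variable {k : Type u} [Field k] {C : Scheme.{u}} {c : C ⟶ Spec (CommRingCat.of k)}
  {ε : SchemeHomOver (𝟙 (Spec (CommRingCat.of k))) c} (Ch : ChartOf c ε)
  (A : Type u) [CommRing A] [Algebra k A]

lemma isAffine₀₁ : IsAffineOpen (Ch.U₀ ⊓ Ch.U₁) := by
  rw [Ch.inf_eq₀]
  exact Ch.isAffine₀.basicOpen _

lemma sectionsStr_res {U U' : C.Opens} (h : U' ≤ U) (a : k) :
    resRing h (sectionsStr c U a) = sectionsStr c U' a := by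
  unfold resRing sectionsStr
  simp only [CommRingCat.hom_comp, RingHom.comp_apply]
  rw [← RingHom.comp_apply, ← CommRingCat.hom_comp, ← Functor.map_comp]
  rfl

lemma i₀₁_str (a : k) :
    Ch.i₀₁ (sectionsStr c (Ch.U₀ ⊓ Ch.U₁) a) = algebraMap k Ch.B₀₁ a := by
  rw [← sectionsStr_res (c := c) (inf_le_left : Ch.U₀ ⊓ Ch.U₁ ≤ Ch.U₀), Ch.i₀₁_res₀, Ch.i₀_str,
    ← IsScalarTower.algebraMap_apply]

/-- The chart `Spec (A ⊗ B₀) ⟶ C_A`. -/
noncomputable abbrev chart₀ :
    Spec (CommRingCat.of (A ⊗[k] Ch.B₀)) ⟶ pullback c (specStr k A) :=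
  chartMap c A Ch.isAffine₀ Ch.i₀ Ch.i₀_str

/-- The chart `Spec (A ⊗ B₁) ⟶ C_A`. -/
noncomputable abbrev chart₁ :
    Spec (CommRingCat.of (A ⊗[k] Ch.B₁)) ⟶ pullback c (specStr k A) :=
  chartMap c A Ch.isAffine₁ Ch.i₁ Ch.i₁_str

/-- The chart `Spec (A ⊗ B₀₁) ⟶ C_A`. -/
noncomputable abbrev chart₀₁ :
    Spec (CommRingCat.of (A ⊗[k] Ch.B₀₁)) ⟶ pullback c (specStr k A) :=
  chartMap c A (isAffine₀₁ Ch) Ch.i₀₁ (i₀₁_str Ch)

lemma chart_w₀ :
    Spec.map (CommRingCat.ofHom (algebraMap (A ⊗[k] Ch.B₀) (A ⊗[k] Ch.B₀₁))) ≫ chart₀ Ch A =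
      chart₀₁ Ch A :=
  chartMap_res c A Ch.isAffine₀ (isAffine₀₁ Ch) inf_le_left Ch.i₀ Ch.i₀_str Ch.i₀₁ (i₀₁_str Ch)
    Ch.i₀₁_res₀

lemma chart_w₁ :
    Spec.map (CommRingCat.ofHom (algebraMap (A ⊗[k] Ch.B₁) (A ⊗[k] Ch.B₀₁))) ≫ chart₁ Ch A =
      chart₀₁ Ch A :=
  chartMap_res c A Ch.isAffine₁ (isAffine₀₁ Ch) inf_le_right Ch.i₁ Ch.i₁_str Ch.i₀₁ (i₀₁_str Ch)
    Ch.i₀₁_res₁

variable (G : CurveGD k Ch.B₀ Ch.B₁ Ch.B₀₁ A)

/-- The gluing data on `C_A` attached to a gluing datum `G` of modules. -/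
noncomputable abbrev curveData : AffGlueData (pullback c (specStr k A)) :=
  haveI := Ch.isCurveChart.away₀
  haveI := Ch.isCurveChart.away₁
  haveI : IsLocalization.Away ((1 : A) ⊗ₜ[k] Ch.x) (A ⊗[k] Ch.B₀₁) :=
    away_tensor (k := k) A Ch.B₀ Ch.B₀₁ Ch.x
  haveI : IsLocalization.Away ((1 : A) ⊗ₜ[k] Ch.y) (A ⊗[k] Ch.B₀₁) :=
    away_tensor (k := k) A Ch.B₁ Ch.B₀₁ Ch.y
  haveI : IsOpenImmersion (Spec.map (CommRingCat.ofHom
      (algebraMap (A ⊗[k] Ch.B₀) (A ⊗[k] Ch.B₀₁)))) :=
    IsOpenImmersion.of_isLocalization ((1 : A) ⊗ₜ[k] Ch.x)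
  haveI : IsOpenImmersion (Spec.map (CommRingCat.ofHom
      (algebraMap (A ⊗[k] Ch.B₁) (A ⊗[k] Ch.B₀₁)))) :=
    IsOpenImmersion.of_isLocalization ((1 : A) ⊗ₜ[k] Ch.y)
  { R₀ := CommRingCat.of (A ⊗[k] Ch.B₀)
    R₁ := CommRingCat.of (A ⊗[k] Ch.B₁)
    R₀₁ := CommRingCat.of (A ⊗[k] Ch.B₀₁)
    j₀ := chart₀ Ch A
    j₁ := chart₁ Ch A
    ρ₀ := CommRingCat.ofHom (algebraMap (A ⊗[k] Ch.B₀) (A ⊗[k] Ch.B₀₁))
    ρ₁ := CommRingCat.ofHom (algebraMap (A ⊗[k] Ch.B₁) (A ⊗[k] Ch.B₀₁))
    w := (chart_w₀ Ch A).trans (chart_w₁ Ch A).symm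
    hinter := by
      rw [opensRange_congr (chart_w₀ Ch A), chartMap_opensRange, chartMap_opensRange,
        chartMap_opensRange]
      rfl
    P₀ := ModuleCat.of (A ⊗[k] Ch.B₀) G.N₀
    P₁ := ModuleCat.of (A ⊗[k] Ch.B₁) G.N₁
    P₀₁ := ModuleCat.of (A ⊗[k] Ch.B₀₁) G.N₀₁
    r₀ := toSemilinear (R' := A ⊗[k] Ch.B₀₁) G.r₀
    r₁ := toSemilinear (R' := A ⊗[k] Ch.B₀₁) G.r₁
    f₀ := (1 : A) ⊗ₜ[k] Ch.x
    f₁ := (1 : A) ⊗ₜ[k] Ch.y
    hf₀ := by
      rw [Scheme.Hom.image_top_eq_opensRange]
      exact TopologicalSpace.Opens.ext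
        (PrimeSpectrum.localization_away_comap_range (A ⊗[k] Ch.B₀₁) ((1 : A) ⊗ₜ[k] Ch.x))
    hf₁ := by
      rw [Scheme.Hom.image_top_eq_opensRange]
      exact TopologicalSpace.Opens.ext
        (PrimeSpectrum.localization_away_comap_range (A ⊗[k] Ch.B₀₁) ((1 : A) ⊗ₜ[k] Ch.y))
    loc₀ := isLocAt_of_isBaseChange ((1 : A) ⊗ₜ[k] Ch.x) G.r₀ G.isBaseChange₀
    loc₁ := isLocAt_of_isBaseChange ((1 : A) ⊗ₜ[k] Ch.y) G.r₁ G.isBaseChange₁ }

end CurveData

end Fermat.Agent.S25.H866
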