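import Fermat.Agent.S25.H866.CurveCharts

/-!
# S25, block DICT: `Stmt.DictGlue`

Every rigidifiable gluing datum over `A` is the gluing datum of sections of a rigidified line
bundle on `C_A`.
-/

set_option autoImplicit false

open CategoryTheory CategoryTheory.Limits AlgebraicGeometry AlgebraicGeometry.RelPicard
  NeronModelInfra
open scoped TensorProduct

universe u

namespace Fermat.Agent.S25.H866

section SemilinearBC

variable {R R' : Type u} [CommRing R] [CommRing R'] (ρ : R →+* R')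
  {N N' : Type u} [AddCommGroup N] [Module R N] [AddCommGroup N'] [Module R' N']

/-- A semilinear base change map identifies the extension of scalars with the target. -/
lemma nonempty_extendScalars_iso (b : N →ₛₗ[ρ] N') (h : IsSemilinearBaseChange ρ b) :
    Nonempty ((ModuleCat.extendScalars ρ).obj (ModuleCat.of R N) ≅ ModuleCat.of R' N') := by
  letI : Algebra R R' := ρ.toAlgebra
  letI : Module R N' := Module.compHom N' ρ
  haveI : IsScalarTower R R' N' := ⟨fun r r' n => by
    change (ρ r * r') • n = ρ r • (r' • n); rw [mul_smul]⟩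
  have h' : IsBaseChange R' (show N →ₗ[R] N' from
    { toFun := fun n => b n
      map_add' := fun m n => b.map_add m n
      map_smul' := fun r n => LinearMap.map_smulₛₗ b r n }) := h
  exact ⟨((H445.extendScalarsEquivTensorAux ρ (ModuleCat.of R N)) ≪≫ₗ h'.equiv).toModuleIso⟩

end SemilinearBC

section Rig

variable {k : Type u} [Field k] {C : Scheme.{u}} {c : C ⟶ Spec (CommRingCat.of k)}
  {ε : SchemeHomOver (𝟙 (Spec (CommRingCat.of k))) c} (Ch : ChartOf c ε)
  (A : Type u) [CommRing A] [Algebra k A]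

/-- The section `Spec A ⟶ Spec (A ⊗ B₁)` given by the marked point. -/
noncomputable def epsSpec : Spec (CommRingCat.of A) ⟶ Spec (CommRingCat.of (A ⊗[k] Ch.B₁)) :=
  Spec.map (CommRingCat.ofHom (epsHom Ch.e A).toRingHom)

/-- The marked point, in the chart `U₁`. -/
lemma eps_point :
    ε.1 = Spec.map ((ε.1.appLE Ch.U₁ ⊤ (le_of_eq Ch.eps_mem.symm)) ≫
      (Scheme.ΓSpecIso (CommRingCat.of k)).hom) ≫ Ch.isAffine₁.fromSpec := by
  have h := IsAffineOpen.SpecMap_appLE_fromSpec ε.1 Ch.isAffine₁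
    (isAffineOpen_top (Spec (CommRingCat.of k))) (le_of_eq Ch.eps_mem.symm)
  rw [Spec.map_comp, Category.assoc, h, IsAffineOpen.fromSpec_top, Scheme.isoSpec_Spec_inv,
    ← Category.assoc, ← Spec.map_comp, Iso.inv_hom_id, Spec.map_id, Category.id_comp]

/-- The rigidifying section factors through the chart `Spec (A ⊗ B₁)`. -/
lemma epsSpec_chart₁ : epsSpec Ch A ≫ chart₁ Ch A = rigSection c (specStr k A) ε := by
  apply pullback.hom_ext
  · rw [Category.assoc, chartMap_fst, H205.rigSection_fst]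
    conv_rhs => rw [eps_point Ch]
    unfold epsSpec specStr
    rw [← Category.assoc, ← Category.assoc, ← Spec.map_comp, ← Spec.map_comp]
    congr 2
    ext f
    have h1 := Ch.e_eq f
    change epsHom Ch.e A ((1 : A) ⊗ₜ[k] Ch.i₁ f) =
      algebraMap k A (evalAt c ε Ch.U₁ Ch.eps_mem f)
    rw [← h1]
    simp [epsHom, Algebra.ofId_apply]
  · rw [Category.assoc, chartMap_snd, H205.rigSection_snd]
    unfold epsSpec
    rw [← Spec.map_comp, ← Spec.map_id]
    congr 1
    ext a
    change epsHom Ch.e A (a ⊗ₜ[k] (1 : Ch.B₁)) = a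
    simp [epsHom]

end Rig

section Main

open AlgebraicGeometry.Scheme.Modules

variable {k : Type u} [Field k] {C : Scheme.{u}} {c : C ⟶ Spec (CommRingCat.of k)}
  {ε : SchemeHomOver (𝟙 (Spec (CommRingCat.of k))) c} (Ch : ChartOf c ε)
  (A : Type u) [CommRing A] [Algebra k A] (G : CurveGD k Ch.B₀ Ch.B₁ Ch.B₀₁ A)

lemma chartRing_congr {X : Scheme.{u}} {R : CommRingCat.{u}} {j j' : Spec R ⟶ X}
    [IsOpenImmersion j] [IsOpenImmersion j'] (h : j = j') {V : X.Opens} (hV : j ''ᵁ ⊤ = V)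
    (hV' : j' ''ᵁ ⊤ = V) (s : Γ(X, V)) : chartRing j hV s = chartRing j' hV' s := by
  subst h
  rfl

lemma chart_cover (x : ↥(pullback c (specStr k A))) :
    x ∈ Set.range (chart₀ Ch A) ∨ x ∈ Set.range (chart₁ Ch A) := by
  have h : (pullback.fst c (specStr k A)) x ∈ Ch.U₀ ⊔ Ch.U₁ := by
    rw [Ch.cover]
    trivial
  rcases h with h | h
  · left
    have h' : x ∈ (chart₀ Ch A).opensRange := by
      rw [chartMap_opensRange]
      exact h
    exact h'
  · right
    have h' : x ∈ (chart₁ Ch A).opensRange := by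
      rw [chartMap_opensRange]
      exact h
    exact h'

lemma curveData_hV₀ :
    (curveData Ch A G).j₀ ''ᵁ ⊤ = preimageOpen (c := c) A Ch.U₀ :=
  chartMap_image_top c A Ch.isAffine₀ Ch.i₀ Ch.i₀_str

lemma curveData_hV₁ :
    (curveData Ch A G).j₁ ''ᵁ ⊤ = preimageOpen (c := c) A Ch.U₁ :=
  chartMap_image_top c A Ch.isAffine₁ Ch.i₁ Ch.i₁_str

lemma curveData_j₀₁ : (curveData Ch A G).j₀₁ = chart₀₁ Ch A := chart_w₀ Ch A

lemma curveData_hV₀₁ :
    (curveData Ch A G).j₀₁ ''ᵁ ⊤ = preimageOpen (c := c) A (Ch.U₀ ⊓ Ch.U₁) := by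
  rw [Scheme.Hom.image_top_eq_opensRange, opensRange_congr (curveData_j₀₁ Ch A G),
    chartMap_opensRange]

/-- The glued sheaf is rigidified along the marked section. -/
lemma nonempty_rigidification (hrig : G.Rigidifiable Ch.e) :
    Nonempty ((Scheme.Modules.pullback (rigSection c (specStr k A) ε)).obj
      (curveData Ch A G).glued ≅ SheafOfModules.unit _) := by
  obtain ⟨b, hb⟩ := hrig
  obtain ⟨m⟩ := nonempty_extendScalars_iso (epsHom Ch.e A).toRingHom b hb
  exact ⟨(Scheme.Modules.pullbackCongr (epsSpec_chart₁ Ch A).symm).app (curveData Ch A G).glued ≪≫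
    ((Scheme.Modules.pullbackComp (epsSpec Ch A) (chart₁ Ch A)).app
      (curveData Ch A G).glued).symm ≪≫
    (Scheme.Modules.pullback (epsSpec Ch A)).mapIso (curveData Ch A G).pullbackIso₁ ≪≫
    H445.pullbackTildeObjIso (CommRingCat.ofHom (epsHom Ch.e A).toRingHom)
      (curveData Ch A G).P₁ ≪≫
    (tilde.functor _).mapIso m ≪≫ tildeSelf⟩

/-- **DICT-GLUE.** Every rigidifiable gluing datum over `A` is the gluing datum of sections of
a rigidified line bundle on `C_A`. -/
theorem dictGlue : Stmt.DictGlue Ch := by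
  intro A _ _ G hrig
  haveI : Module.Invertible (curveData Ch A G).R₀ (curveData Ch A G).P₀ := G.invertible₀
  haveI : Module.Invertible (curveData Ch A G).R₁ (curveData Ch A G).P₁ := G.invertible₁
  refine ⟨⟨(curveData Ch A G).glued, (curveData Ch A G).isInvertible_glued (chart_cover Ch A),
    nonempty_rigidification Ch A G hrig⟩, ?_⟩
  refine ⟨(curveData Ch A G).e₀ (curveData_hV₀ Ch A G), (curveData Ch A G).e₁ (curveData_hV₁ Ch A G),
    (curveData Ch A G).e₀₁ (curveData_hV₀₁ Ch A G), ⟨?_, ?_⟩, ⟨?_, ?_⟩, ⟨?_, ?_⟩, ?_, ?_⟩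
  · intro a s
    rw [AffGlueData.e₀_smul]
    congr 1
    exact chartRing_chartMap_base c A Ch.isAffine₀ Ch.i₀ Ch.i₀_str a
  · intro f s
    rw [AffGlueData.e₀_smul]
    congr 1
    exact chartRing_chartMap_curve c A Ch.isAffine₀ Ch.i₀ Ch.i₀_str f
  · intro a s
    rw [AffGlueData.e₁_smul]
    congr 1
    exact chartRing_chartMap_base c A Ch.isAffine₁ Ch.i₁ Ch.i₁_str a
  · intro f s
    rw [AffGlueData.e₁_smul]
    congr 1
    exact chartRing_chartMap_curve c A Ch.isAffine₁ Ch.i₁ Ch.i₁_str f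
  · intro a s
    rw [AffGlueData.e₀₁_smul]
    congr 1
    rw [chartRing_congr (curveData_j₀₁ Ch A G) _
      (chartMap_image_top c A (isAffine₀₁ Ch) Ch.i₀₁ (i₀₁_str Ch))]
    exact chartRing_chartMap_base c A (isAffine₀₁ Ch) Ch.i₀₁ (i₀₁_str Ch) a
  · intro f s
    rw [AffGlueData.e₀₁_smul]
    congr 1
    rw [chartRing_congr (curveData_j₀₁ Ch A G) _
      (chartMap_image_top c A (isAffine₀₁ Ch) Ch.i₀₁ (i₀₁_str Ch))]
    exact chartRing_chartMap_curve c A (isAffine₀₁ Ch) Ch.i₀₁ (i₀₁_str Ch) f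
  · intro s
    exact (curveData Ch A G).e₀₁_res₀ (curveData_hV₀ Ch A G) (curveData_hV₀₁ Ch A G) _ s
  · intro s
    exact (curveData Ch A G).e₀₁_res₁ (curveData_hV₁ Ch A G) (curveData_hV₀₁ Ch A G) _ s

end Main

end Fermat.Agent.S25.H866
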