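import Mathlib

/-!
# S25, block GLUE, leaf G2 (two-element covers): gluing of sheaves of modules

Given open immersions `j₀ : U₀ ⟶ X`, `j₁ : U₁ ⟶ X`, `i₀ : U₀₁ ⟶ U₀`, `i₁ : U₀₁ ⟶ U₁`
with `i₀ ≫ j₀ = i₁ ≫ j₁` whose common image is the intersection of the images of `j₀`, `j₁`,
sheaves of modules `M₀` on `U₀`, `M₁` on `U₁` and an isomorphism `φ` between their
restrictions to `U₀₁`, we construct a sheaf of modules `M` on `X` together with
isomorphisms `M|U₀ ≅ M₀`, `M|U₁ ≅ M₁` compatible with `φ`.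
-/

open CategoryTheory Limits AlgebraicGeometry

universe u

namespace Fermat.Agent.S25.H866

open AlgebraicGeometry.Scheme.Modules

section Sections

variable {X : Scheme.{u}}

/-- Evaluation of abelian presheaves at an open. -/
noncomputable def evOpen (W : X.Opens) : TopCat.Presheaf Ab.{u} X ⥤ Ab.{u} :=
  (evaluation (X.Opensᵒᵖ) Ab.{u}).obj (Opposite.op W)

noncomputable instance (W : X.Opens) : PreservesLimitsOfSize.{u, u} (evOpen W) :=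
  inferInstanceAs
    (PreservesLimitsOfSize.{u, u} ((evaluation (X.Opensᵒᵖ) Ab.{u}).obj (Opposite.op W)))

/-- The "sections over `W`" functor on sheaves of modules, with values in abelian groups. -/
noncomputable def sectionsFunctor (W : X.Opens) : X.Modules ⥤ Ab :=
  Scheme.Modules.toPresheaf X ⋙ evOpen W

noncomputable instance (W : X.Opens) : PreservesLimitsOfSize.{u, u} (sectionsFunctor W) := by
  unfold sectionsFunctor
  infer_instance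

@[simp]
lemma sectionsFunctor_map {M N : X.Modules} (f : M ⟶ N) (W : X.Opens) :
    (sectionsFunctor W).map f = f.app W := rfl

/-- In a pullback square of sheaves of modules, the second projection is an isomorphism on
sections over `W` as soon as the first leg of the cospan is. -/
lemma isIso_snd_app_of_isPullback {P A B C : X.Modules} {fst : P ⟶ A} {snd : P ⟶ B}
    {a : A ⟶ C} {b : B ⟶ C} (h : IsPullback fst snd a b) (W : X.Opens)
    (ha : IsIso (a.app W)) : IsIso (snd.app W) := by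
  have h' := h.map (sectionsFunctor W)
  simp only [sectionsFunctor_map] at h'
  exact h'.isIso_snd_of_isIso ha

lemma isIso_fst_app_of_isPullback {P A B C : X.Modules} {fst : P ⟶ A} {snd : P ⟶ B}
    {a : A ⟶ C} {b : B ⟶ C} (h : IsPullback fst snd a b) (W : X.Opens)
    (hb : IsIso (b.app W)) : IsIso (fst.app W) := by
  have h' := h.map (sectionsFunctor W)
  simp only [sectionsFunctor_map] at h'
  exact h'.isIso_fst_of_isIso hb

/-- Restriction maps between equal opens are isomorphisms. -/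
lemma isIso_presheaf_map_of_eq (M : X.Modules) {V W : X.Opens} (h : V ≤ W) (h' : W ≤ V) :
    IsIso (M.presheaf.map (homOfLE h).op) := by
  have : IsIso (homOfLE h) := ⟨homOfLE h', Subsingleton.elim _ _, Subsingleton.elim _ _⟩
  infer_instance

/-- Naturality of a morphism of sheaves of modules with respect to restriction maps. -/
lemma hom_naturality {M N : X.Modules} (f : M ⟶ N) {V W : X.Opens} (i : V ⟶ W) :
    M.presheaf.map i.op ≫ f.app V = f.app W ≫ N.presheaf.map i.op :=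
  f.mapPresheaf.naturality i.op

/-- Any two parallel restriction maps agree. -/
lemma presheaf_map_congr (M : X.Modules) {V W : X.Opens} (f g : V ⟶ W) :
    M.presheaf.map f.op = M.presheaf.map g.op := by
  rw [Subsingleton.elim f g]

lemma presheaf_map_comp (M : X.Modules) {U V W : X.Opens} (f : U ⟶ V) (g : V ⟶ W) :
    M.presheaf.map g.op ≫ M.presheaf.map f.op = M.presheaf.map (f ≫ g).op := by
  rw [op_comp, Functor.map_comp]

lemma presheaf_map_eqToHom_comp₃ (M : X.Modules) {A B C D : X.Opens}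
    (h1 : B = A) (h2 : C = B) (h3 : D = C) :
    M.presheaf.map (eqToHom h1).op ≫ M.presheaf.map (eqToHom h2).op ≫
      M.presheaf.map (eqToHom h3).op = M.presheaf.map (eqToHom (h3.trans (h2.trans h1))).op := by
  subst h1 h2 h3
  simp

/-- Composites of restriction maps are determined by their source and target. -/
lemma presheaf_map_comp' (M : X.Modules) {U V W : X.Opensᵒᵖ} (f : U ⟶ V) (g : V ⟶ W)
    (h : U ⟶ W) : M.presheaf.map f ≫ M.presheaf.map g = M.presheaf.map h := by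
  rw [← Functor.map_comp]
  congr 1

/-- The diagram chase behind `glue_compat`, in an arbitrary category. -/
lemma glue_compat_aux {C : Type*} [Category C] {P0 P1 A A1 A2 C' C'' C₀ B B1 : C}
    {fst0 : P0 ⟶ A} {snd0 : P0 ⟶ B} {snd1 : P1 ⟶ B1} {rP : P0 ⟶ P1}
    {a1 : A ⟶ A1} {φ' : A1 ⟶ C'} {c1 : C' ⟶ C''} {b1 : B ⟶ C''}
    {a2 : A ⟶ A2} {φV : A2 ⟶ C₀} {b2 : B1 ⟶ C₀}
    {rB : B ⟶ B1} {rA : A1 ⟶ A2} {rC : C' ⟶ C₀} {rC'' : C'' ⟶ C₀}
    (cond : fst0 ≫ a1 ≫ φ' ≫ c1 = snd0 ≫ b1)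
    (natS : rP ≫ snd1 = snd0 ≫ rB)
    (natφ : rA ≫ φV = φ' ≫ rC)
    (h1 : c1 ≫ rC'' = rC) (h2 : a1 ≫ rA = a2) (h3 : b1 ≫ rC'' = rB ≫ b2) :
    (fst0 ≫ a2) ≫ φV = rP ≫ snd1 ≫ b2 := by
  calc (fst0 ≫ a2) ≫ φV = fst0 ≫ a1 ≫ rA ≫ φV := by rw [← h2]; simp only [Category.assoc]
    _ = fst0 ≫ a1 ≫ φ' ≫ c1 ≫ rC'' := by rw [natφ, ← h1]
    _ = (fst0 ≫ a1 ≫ φ' ≫ c1) ≫ rC'' := by simp only [Category.assoc]
    _ = snd0 ≫ rB ≫ b2 := by rw [cond, Category.assoc, h3]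
    _ = rP ≫ snd1 ≫ b2 := by rw [← Category.assoc, ← natS, Category.assoc]

end Sections

section Glue

variable {X U₀ U₁ U₀₁ : Scheme.{u}} (j₀ : U₀ ⟶ X) (j₁ : U₁ ⟶ X) (i₀ : U₀₁ ⟶ U₀) (i₁ : U₀₁ ⟶ U₁)
  [IsOpenImmersion j₀] [IsOpenImmersion j₁] [IsOpenImmersion i₀] [IsOpenImmersion i₁]
  (w : i₀ ≫ j₀ = i₁ ≫ j₁)
  (M₀ : U₀.Modules) (M₁ : U₁.Modules)
  (φ : (restrictFunctor i₀).obj M₀ ≅ (restrictFunctor i₁).obj M₁)

/-- The target of the gluing cospan: `M₁|U₀₁` pushed forward to `X`. -/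
noncomputable def glueTarget : X.Modules :=
  (pushforward j₁).obj ((pushforward i₁).obj ((restrictFunctor i₁).obj M₁))

/-- The leg `j₁_* M₁ ⟶ j₁_* i₁_* (M₁|U₀₁)` of the gluing cospan. -/
noncomputable def glueRight : (pushforward j₁).obj M₁ ⟶ glueTarget j₁ i₁ M₁ :=
  (pushforward j₁).map ((restrictAdjunction i₁).unit.app M₁)

/-- The leg `j₀_* M₀ ⟶ j₁_* i₁_* (M₁|U₀₁)` of the gluing cospan. -/
noncomputable def glueLeft : (pushforward j₀).obj M₀ ⟶ glueTarget j₁ i₁ M₁ :=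
  (pushforward j₀).map ((restrictAdjunction i₀).unit.app M₀ ≫ (pushforward i₀).map φ.hom) ≫
    (pushforwardComp i₀ j₀).hom.app _ ≫ (pushforwardCongr w).hom.app _ ≫
      (pushforwardComp i₁ j₁).inv.app _

/-- The glued sheaf of modules. -/
noncomputable def glue : X.Modules :=
  pullback (glueLeft j₀ j₁ i₀ i₁ w M₀ M₁ φ) (glueRight j₁ i₁ M₁)

omit [IsOpenImmersion j₁] in
lemma glueRight_app (W : X.Opens) :
    (glueRight j₁ i₁ M₁).app W =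
      M₁.presheaf.map (homOfLE (i₁.image_preimage_le (j₁ ⁻¹ᵁ W))).op := rfl

omit [IsOpenImmersion j₀] [IsOpenImmersion j₁] [IsOpenImmersion i₀] [IsOpenImmersion i₁] in
include w in
lemma preimage_preimage_eq (W : X.Opens) : i₁ ⁻¹ᵁ j₁ ⁻¹ᵁ W = i₀ ⁻¹ᵁ j₀ ⁻¹ᵁ W := by
  rw [← Scheme.Hom.comp_preimage, ← Scheme.Hom.comp_preimage, w]

omit [IsOpenImmersion j₀] [IsOpenImmersion j₁] in
lemma glueLeft_app (W : X.Opens) :
    (glueLeft j₀ j₁ i₀ i₁ w M₀ M₁ φ).app W =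
      M₀.presheaf.map (homOfLE (i₀.image_preimage_le (j₀ ⁻¹ᵁ W))).op ≫
        φ.hom.app (i₀ ⁻¹ᵁ j₀ ⁻¹ᵁ W) ≫
          ((restrictFunctor i₁).obj M₁).presheaf.map
            (eqToHom (preimage_preimage_eq j₀ j₁ i₀ i₁ w W)).op := by
  rfl

variable (hinter : (i₀ ≫ j₀).opensRange = j₀.opensRange ⊓ j₁.opensRange)

omit [IsOpenImmersion i₁] in
include hinter in
lemma opensRange_left : i₀.opensRange = j₀ ⁻¹ᵁ j₁.opensRange := by
  have h1 : j₀ ''ᵁ i₀.opensRange = j₀.opensRange ⊓ j₁.opensRange := by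
    rw [← Scheme.Hom.opensRange_comp, hinter]
  have h2 := congrArg (j₀ ⁻¹ᵁ ·) h1
  simp only [Scheme.Hom.preimage_image_eq] at h2
  rw [h2]
  ext x
  simp

include w hinter in
lemma opensRange_right : i₁.opensRange = j₁ ⁻¹ᵁ j₀.opensRange := by
  have h0 : (i₁ ≫ j₁).opensRange = (i₀ ≫ j₀).opensRange :=
    TopologicalSpace.Opens.ext (by
      show Set.range (i₁ ≫ j₁) = Set.range (i₀ ≫ j₀)
      rw [w])
  have h1 : j₁ ''ᵁ i₁.opensRange = j₀.opensRange ⊓ j₁.opensRange := by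
    rw [← Scheme.Hom.opensRange_comp, h0, hinter]
  have h2 := congrArg (j₁ ⁻¹ᵁ ·) h1
  simp only [Scheme.Hom.preimage_image_eq] at h2
  rw [h2]
  ext x
  simp

include hinter in
lemma isIso_glueLeft_app (W : X.Opens) (hW : W ≤ j₁.opensRange) :
    IsIso ((glueLeft j₀ j₁ i₀ i₁ w M₀ M₁ φ).app W) := by
  rw [glueLeft_app]
  have hle : j₀ ⁻¹ᵁ W ≤ i₀ ''ᵁ i₀ ⁻¹ᵁ j₀ ⁻¹ᵁ W := by
    rw [Scheme.Hom.image_preimage_eq_opensRange_inf, opensRange_left j₀ j₁ i₀ hinter]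
    exact le_inf (j₀.preimage_mono hW) le_rfl
  have h1 := isIso_presheaf_map_of_eq M₀ (i₀.image_preimage_le (j₀ ⁻¹ᵁ W)) hle
  have h2 : IsIso (φ.hom.app (i₀ ⁻¹ᵁ j₀ ⁻¹ᵁ W)) := inferInstance
  have h3 : IsIso (((restrictFunctor i₁).obj M₁).presheaf.map
      (eqToHom (preimage_preimage_eq j₀ j₁ i₀ i₁ w W)).op) := inferInstance
  exact IsIso.comp_isIso' h1 (IsIso.comp_isIso' h2 h3)

include w hinter in
lemma isIso_glueRight_app (W : X.Opens) (hW : W ≤ j₀.opensRange) :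
    IsIso ((glueRight j₁ i₁ M₁).app W) := by
  rw [glueRight_app]
  have hle : j₁ ⁻¹ᵁ W ≤ i₁ ''ᵁ i₁ ⁻¹ᵁ j₁ ⁻¹ᵁ W := by
    rw [Scheme.Hom.image_preimage_eq_opensRange_inf, opensRange_right j₀ j₁ i₀ i₁ w hinter]
    exact le_inf (j₁.preimage_mono hW) le_rfl
  exact isIso_presheaf_map_of_eq M₁ (i₁.image_preimage_le (j₁ ⁻¹ᵁ W)) hle

/-- The first projection of the glued sheaf. -/
noncomputable def glueFst : glue j₀ j₁ i₀ i₁ w M₀ M₁ φ ⟶ (pushforward j₀).obj M₀ :=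
  pullback.fst _ _

/-- The second projection of the glued sheaf. -/
noncomputable def glueSnd : glue j₀ j₁ i₀ i₁ w M₀ M₁ φ ⟶ (pushforward j₁).obj M₁ :=
  pullback.snd _ _

omit [IsOpenImmersion j₀] [IsOpenImmersion j₁] in
lemma glue_isPullback :
    IsPullback (glueFst j₀ j₁ i₀ i₁ w M₀ M₁ φ) (glueSnd j₀ j₁ i₀ i₁ w M₀ M₁ φ)
      (glueLeft j₀ j₁ i₀ i₁ w M₀ M₁ φ) (glueRight j₁ i₁ M₁) :=
  IsPullback.of_hasPullback _ _

include hinter in
lemma isIso_restrict_glueFst :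
    IsIso ((restrictFunctor j₀).map (glueFst j₀ j₁ i₀ i₁ w M₀ M₁ φ)) := by
  rw [Hom.isIso_iff_isIso_app]
  intro V
  exact isIso_fst_app_of_isPullback (glue_isPullback j₀ j₁ i₀ i₁ w M₀ M₁ φ) (j₀ ''ᵁ V)
    (isIso_glueRight_app j₀ j₁ i₀ i₁ w M₁ hinter _ (j₀.image_le_opensRange V))

include hinter in
lemma isIso_restrict_glueSnd :
    IsIso ((restrictFunctor j₁).map (glueSnd j₀ j₁ i₀ i₁ w M₀ M₁ φ)) := by
  rw [Hom.isIso_iff_isIso_app]
  intro V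
  exact isIso_snd_app_of_isPullback (glue_isPullback j₀ j₁ i₀ i₁ w M₀ M₁ φ) (j₁ ''ᵁ V)
    (isIso_glueLeft_app j₀ j₁ i₀ i₁ w M₀ M₁ φ hinter _ (j₁.image_le_opensRange V))

/-- The restriction of the glued sheaf to `U₀` is `M₀`. -/
noncomputable def glueIso₀ : (restrictFunctor j₀).obj (glue j₀ j₁ i₀ i₁ w M₀ M₁ φ) ≅ M₀ :=
  haveI := isIso_restrict_glueFst j₀ j₁ i₀ i₁ w M₀ M₁ φ hinter
  asIso ((restrictFunctor j₀).map (glueFst j₀ j₁ i₀ i₁ w M₀ M₁ φ)) ≪≫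
    asIso ((restrictAdjunction j₀).counit.app M₀)

/-- The restriction of the glued sheaf to `U₁` is `M₁`. -/
noncomputable def glueIso₁ : (restrictFunctor j₁).obj (glue j₀ j₁ i₀ i₁ w M₀ M₁ φ) ≅ M₁ :=
  haveI := isIso_restrict_glueSnd j₀ j₁ i₀ i₁ w M₀ M₁ φ hinter
  asIso ((restrictFunctor j₁).map (glueSnd j₀ j₁ i₀ i₁ w M₀ M₁ φ)) ≪≫
    asIso ((restrictAdjunction j₁).counit.app M₁)

lemma glueIso₀_hom_app (V : U₀.Opens) :
    (glueIso₀ j₀ j₁ i₀ i₁ w M₀ M₁ φ hinter).hom.app V =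
      (glueFst j₀ j₁ i₀ i₁ w M₀ M₁ φ).app (j₀ ''ᵁ V) ≫
        M₀.presheaf.map (eqToHom (j₀.preimage_image_eq V).symm).op := rfl

lemma glueIso₁_hom_app (V : U₁.Opens) :
    (glueIso₁ j₀ j₁ i₀ i₁ w M₀ M₁ φ hinter).hom.app V =
      (glueSnd j₀ j₁ i₀ i₁ w M₀ M₁ φ).app (j₁ ''ᵁ V) ≫
        M₁.presheaf.map (eqToHom (j₁.preimage_image_eq V).symm).op := rfl

/-- The canonical identification of the two restrictions of a sheaf on `X` to `U₀₁`. -/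
noncomputable def restrictOverlapIso (M : X.Modules) :
    (restrictFunctor i₀).obj ((restrictFunctor j₀).obj M) ≅
      (restrictFunctor i₁).obj ((restrictFunctor j₁).obj M) :=
  (restrictFunctorComp i₀ j₀).symm.app M ≪≫ (restrictFunctorCongr w).app M ≪≫
    (restrictFunctorComp i₁ j₁).app M

omit [IsOpenImmersion j₀] [IsOpenImmersion j₁] [IsOpenImmersion i₀] [IsOpenImmersion i₁] in
include w in
lemma image_image_eq [IsOpenImmersion j₀] [IsOpenImmersion j₁] [IsOpenImmersion i₀]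
    [IsOpenImmersion i₁] (V : U₀₁.Opens) : j₁ ''ᵁ i₁ ''ᵁ V = j₀ ''ᵁ i₀ ''ᵁ V := by
  rw [← Scheme.Hom.comp_image, ← Scheme.Hom.comp_image]
  ext x
  simp [w]

lemma restrictOverlapIso_hom_app (M : X.Modules) (V : U₀₁.Opens) :
    (restrictOverlapIso j₀ j₁ i₀ i₁ w M).hom.app V =
      M.presheaf.map (eqToHom (image_image_eq j₀ j₁ i₀ i₁ w V)).op := by
  simp only [restrictOverlapIso, Iso.trans_hom, Iso.app_hom, Iso.symm_hom, Hom.comp_app,
    restrictFunctorComp_inv_app_app, restrictFunctorCongr_hom_app_app,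
    restrictFunctorComp_hom_app_app]
  exact presheaf_map_eqToHom_comp₃ M _ _ _

/-- Sectionwise compatibility for any cone over the gluing cospan. -/
lemma compat_app_of_condition {N : X.Modules} (fst : N ⟶ (pushforward j₀).obj M₀)
    (snd : N ⟶ (pushforward j₁).obj M₁)
    (h : fst ≫ glueLeft j₀ j₁ i₀ i₁ w M₀ M₁ φ = snd ≫ glueRight j₁ i₁ M₁) (V : U₀₁.Opens) :
    (fst.app (j₀ ''ᵁ i₀ ''ᵁ V) ≫
        M₀.presheaf.map (eqToHom (j₀.preimage_image_eq (i₀ ''ᵁ V)).symm).op) ≫ φ.hom.app V =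
      N.presheaf.map (eqToHom (image_image_eq j₀ j₁ i₀ i₁ w V)).op ≫
        snd.app (j₁ ''ᵁ i₁ ''ᵁ V) ≫
          M₁.presheaf.map (eqToHom (j₁.preimage_image_eq (i₁ ''ᵁ V)).symm).op := by
  have hW : j₁ ''ᵁ i₁ ''ᵁ V = j₀ ''ᵁ i₀ ''ᵁ V := image_image_eq j₀ j₁ i₀ i₁ w V
  -- the cone condition on sections over `W₀ = j₀ '' i₀ '' V`
  have cond : fst.app (j₀ ''ᵁ i₀ ''ᵁ V) ≫
        (glueLeft j₀ j₁ i₀ i₁ w M₀ M₁ φ).app (j₀ ''ᵁ i₀ ''ᵁ V) =
      snd.app (j₀ ''ᵁ i₀ ''ᵁ V) ≫ (glueRight j₁ i₁ M₁).app (j₀ ''ᵁ i₀ ''ᵁ V) := by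
    rw [← Hom.comp_app, ← Hom.comp_app]
    exact congrArg (fun f => Hom.app f (j₀ ''ᵁ i₀ ''ᵁ V)) h
  rw [glueLeft_app, glueRight_app] at cond
  have hV' : V = i₀ ⁻¹ᵁ j₀ ⁻¹ᵁ j₀ ''ᵁ i₀ ''ᵁ V := by simp
  have hV'' : V = i₁ ⁻¹ᵁ j₁ ⁻¹ᵁ j₀ ''ᵁ i₀ ''ᵁ V :=
    hV'.trans (preimage_preimage_eq j₀ j₁ i₀ i₁ w _).symm
  have natφ := hom_naturality φ.hom (eqToHom hV')
  have natS := hom_naturality snd (eqToHom hW)
  refine glue_compat_aux cond natS natφ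
    (rC'' := ((restrictFunctor i₁).obj M₁).presheaf.map (eqToHom hV'').op) ?_ ?_ ?_
  · exact presheaf_map_comp' _ _ _ _
  · exact presheaf_map_comp' M₀ _ _ _
  · have hle : i₁ ''ᵁ V ≤ j₁ ⁻¹ᵁ j₀ ''ᵁ i₀ ''ᵁ V := by
      rw [← hW, Scheme.Hom.preimage_image_eq]
    exact (presheaf_map_comp' M₁ _ _ (homOfLE hle).op).trans
      (presheaf_map_comp' M₁ _ _ (homOfLE hle).op).symm

theorem glue_compat :
    (restrictFunctor i₀).map (glueIso₀ j₀ j₁ i₀ i₁ w M₀ M₁ φ hinter).hom ≫ φ.hom =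
      (restrictOverlapIso j₀ j₁ i₀ i₁ w (glue j₀ j₁ i₀ i₁ w M₀ M₁ φ)).hom ≫
        (restrictFunctor i₁).map (glueIso₁ j₀ j₁ i₀ i₁ w M₀ M₁ φ hinter).hom := by
  refine Scheme.Modules.hom_ext _ _ fun V => ?_
  rw [Hom.comp_app, Hom.comp_app, restrictOverlapIso_hom_app]
  -- unfold the restricted maps
  change (glueIso₀ j₀ j₁ i₀ i₁ w M₀ M₁ φ hinter).hom.app (i₀ ''ᵁ V) ≫ φ.hom.app V =
    (glue j₀ j₁ i₀ i₁ w M₀ M₁ φ).presheaf.map (eqToHom (image_image_eq j₀ j₁ i₀ i₁ w V)).op ≫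
      (glueIso₁ j₀ j₁ i₀ i₁ w M₀ M₁ φ hinter).hom.app (i₁ ''ᵁ V)
  rw [glueIso₀_hom_app, glueIso₁_hom_app]
  exact compat_app_of_condition j₀ j₁ i₀ i₁ w M₀ M₁ φ _ _ pullback.condition V

/-- **G2, two-element covers (restriction-functor form).**
Sheaves of modules `M₀` on `U₀` and `M₁` on `U₁` together with an isomorphism of their
restrictions to `U₀₁ = U₀ ∩ U₁` glue to a sheaf of modules on `X`.
(No covering hypothesis is needed: outside `U₀ ∪ U₁` the glued sheaf is a pushforward.) -/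
theorem exists_glue₂ (hinter : (i₀ ≫ j₀).opensRange = j₀.opensRange ⊓ j₁.opensRange) :
    ∃ (M : X.Modules) (e₀ : (restrictFunctor j₀).obj M ≅ M₀)
      (e₁ : (restrictFunctor j₁).obj M ≅ M₁),
      (restrictFunctor i₀).map e₀.hom ≫ φ.hom =
        (restrictOverlapIso j₀ j₁ i₀ i₁ w M).hom ≫ (restrictFunctor i₁).map e₁.hom :=
  ⟨glue j₀ j₁ i₀ i₁ w M₀ M₁ φ, glueIso₀ j₀ j₁ i₀ i₁ w M₀ M₁ φ hinter,
    glueIso₁ j₀ j₁ i₀ i₁ w M₀ M₁ φ hinter, glue_compat j₀ j₁ i₀ i₁ w M₀ M₁ φ hinter⟩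

include i₀ i₁ w φ hinter in
/-- **G2, two-element covers (pullback form, existence only).** -/
theorem exists_glue₂_pullback :
    ∃ (M : X.Modules), Nonempty ((Scheme.Modules.pullback j₀).obj M ≅ M₀) ∧
      Nonempty ((Scheme.Modules.pullback j₁).obj M ≅ M₁) :=
  ⟨glue j₀ j₁ i₀ i₁ w M₀ M₁ φ,
    ⟨(restrictFunctorIsoPullback j₀).symm.app _ ≪≫ glueIso₀ j₀ j₁ i₀ i₁ w M₀ M₁ φ hinter⟩,
    ⟨(restrictFunctorIsoPullback j₁).symm.app _ ≪≫ glueIso₁ j₀ j₁ i₀ i₁ w M₀ M₁ φ hinter⟩⟩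

end Glue

section Opens

variable {X : Scheme.{u}} (U₀ U₁ : X.Opens)

lemma opens_w : X.homOfLE (inf_le_left : U₀ ⊓ U₁ ≤ U₀) ≫ U₀.ι =
    X.homOfLE (inf_le_right : U₀ ⊓ U₁ ≤ U₁) ≫ U₁.ι := by
  rw [Scheme.homOfLE_ι, Scheme.homOfLE_ι]

lemma opens_hinter :
    (X.homOfLE (inf_le_left : U₀ ⊓ U₁ ≤ U₀) ≫ U₀.ι).opensRange =
      U₀.ι.opensRange ⊓ U₁.ι.opensRange := by
  simp only [Scheme.Opens.opensRange_ι]
  have h : (X.homOfLE (inf_le_left : U₀ ⊓ U₁ ≤ U₀) ≫ U₀.ι) = (U₀ ⊓ U₁).ι := Scheme.homOfLE_ι _ _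
  exact TopologicalSpace.Opens.ext (by
    show Set.range (X.homOfLE (inf_le_left : U₀ ⊓ U₁ ≤ U₀) ≫ U₀.ι) = _
    rw [h]
    exact congrArg (fun (U : X.Opens) => (U : Set X)) (Scheme.Opens.opensRange_ι (U₀ ⊓ U₁)))

/-- **G2 for two opens of `X`.** -/
theorem exists_glue₂_opens (M₀ : U₀.toScheme.Modules) (M₁ : U₁.toScheme.Modules)
    (φ : (restrictFunctor (X.homOfLE (inf_le_left : U₀ ⊓ U₁ ≤ U₀))).obj M₀ ≅
      (restrictFunctor (X.homOfLE (inf_le_right : U₀ ⊓ U₁ ≤ U₁))).obj M₁) :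
    ∃ (M : X.Modules) (e₀ : (restrictFunctor U₀.ι).obj M ≅ M₀)
      (e₁ : (restrictFunctor U₁.ι).obj M ≅ M₁),
      (restrictFunctor (X.homOfLE (inf_le_left : U₀ ⊓ U₁ ≤ U₀))).map e₀.hom ≫ φ.hom =
        (restrictOverlapIso U₀.ι U₁.ι _ _ (opens_w U₀ U₁) M).hom ≫
          (restrictFunctor (X.homOfLE (inf_le_right : U₀ ⊓ U₁ ≤ U₁))).map e₁.hom :=
  exists_glue₂ U₀.ι U₁.ι _ _ (opens_w U₀ U₁) M₀ M₁ φ (opens_hinter U₀ U₁)

end Opens

end Fermat.Agent.S25.H866
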