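import Fermat.Agent.S25.H866.Glue2

/-!
# S25, block GLUE, leaf G2 (general covers): gluing of sheaves of modules

Given a family of open immersions `j i : Y i ⟶ X`, overlaps `Y₂ i k` (open immersions
`p i k : Y₂ i k ⟶ Y i`, `q i k : Y₂ i k ⟶ Y k` with `p ≫ j i = q ≫ j k` and image the
intersection of the images), sheaves of modules `M i` on `Y i` and isomorphisms `φ i k` of
their restrictions to `Y₂ i k` satisfying the cocycle condition (stated sectionwise on triple
overlaps), we construct a sheaf of modules on `X` restricting to `M i` on `Y i`, compatibly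
with the `φ i k`.
-/

open CategoryTheory Limits AlgebraicGeometry

universe u

namespace Fermat.Agent.S25.H866

open AlgebraicGeometry.Scheme.Modules

set_option linter.style.haveILetI false

/-- The diagram chase behind the multifork condition for the cone of transition maps. -/
lemma cocycle_aux {C : Type*} [Category C] {Al Ai Ak T Al' Ai' Ak' T' : C}
    {tli : Al ⟶ Ai} {tlk : Al ⟶ Ak} {L : Ai ⟶ T} {R : Ak ⟶ T}
    {rl : Al ⟶ Al'} {ri : Ai ⟶ Ai'} {rk : Ak ⟶ Ak'} {rT : T ⟶ T'}
    {tli' : Al' ⟶ Ai'} {tlk' : Al' ⟶ Ak'} {tik' : Ai' ⟶ Ak'} {L' : Ai' ⟶ T'} {R' : Ak' ⟶ T'}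
    (hrT : Mono rT)
    (natL : L ≫ rT = ri ≫ L') (natR : R ≫ rT = rk ≫ R')
    (nat_li : tli ≫ ri = rl ≫ tli') (nat_lk : tlk ≫ rk = rl ≫ tlk')
    (hik : tik' ≫ R' = L') (hc : tli' ≫ tik' = tlk') :
    tli ≫ L = tlk ≫ R := by
  rw [← cancel_mono rT]
  calc (tli ≫ L) ≫ rT = (tli ≫ ri) ≫ L' := by simp only [Category.assoc, natL]
    _ = rl ≫ (tli' ≫ tik') ≫ R' := by rw [nat_li, ← hik]; simp only [Category.assoc]
    _ = (tlk ≫ rk) ≫ R' := by rw [hc, nat_lk, Category.assoc]
    _ = (tlk ≫ R) ≫ rT := by simp only [Category.assoc, natR]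

lemma eq_id_of_idem_of_isIso {C : Type*} [Category C] {A : C} (t : A ⟶ A) (ht : IsIso t)
    (h : t ≫ t = t) : t = 𝟙 A := by
  have h' := congrArg (fun f => inv t ≫ f) h
  simpa using h'

/-- Gluing data for sheaves of modules along a family of open immersions `j i : Y i ⟶ X`
(not necessarily covering `X`), without the cocycle condition. -/
structure ModGlueData (X : Scheme.{u}) (ι : Type u) where
  /-- the pieces -/
  Y : ι → Scheme.{u}
  /-- the inclusions of the pieces -/
  j : ∀ i, Y i ⟶ X
  isOpenImmersion_j : ∀ i, IsOpenImmersion (j i)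
  /-- the overlaps -/
  Y₂ : ι → ι → Scheme.{u}
  /-- the inclusion of the overlap in the first piece -/
  p : ∀ i k, Y₂ i k ⟶ Y i
  /-- the inclusion of the overlap in the second piece -/
  q : ∀ i k, Y₂ i k ⟶ Y k
  isOpenImmersion_p : ∀ i k, IsOpenImmersion (p i k)
  isOpenImmersion_q : ∀ i k, IsOpenImmersion (q i k)
  w : ∀ i k, p i k ≫ j i = q i k ≫ j k
  hinter : ∀ i k, (p i k ≫ j i).opensRange = (j i).opensRange ⊓ (j k).opensRange
  /-- the sheaves to be glued -/
  M : ∀ i, (Y i).Modules
  /-- the transition isomorphisms -/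
  φ : ∀ i k, (restrictFunctor (p i k)).obj (M i) ≅ (restrictFunctor (q i k)).obj (M k)

attribute [instance] ModGlueData.isOpenImmersion_j ModGlueData.isOpenImmersion_p
  ModGlueData.isOpenImmersion_q

namespace ModGlueData

variable {X : Scheme.{u}} {ι : Type u} (D : ModGlueData X ι)

/-- The sheaf `(j i)_* (M i)` on `X`. -/
noncomputable abbrev pushM (i : ι) : X.Modules := (pushforward (D.j i)).obj (D.M i)

/-- The sheaf `(j k)_* (q i k)_* ((M k)|Y₂ i k)` on `X`. -/
noncomputable abbrev targM (i k : ι) : X.Modules := glueTarget (D.j k) (D.q i k) (D.M k)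

/-- The left leg. -/
noncomputable abbrev legL (i k : ι) : D.pushM i ⟶ D.targM i k :=
  glueLeft (D.j i) (D.j k) (D.p i k) (D.q i k) (D.w i k) (D.M i) (D.M k) (D.φ i k)

/-- The right leg. -/
noncomputable abbrev legR (i k : ι) : D.pushM k ⟶ D.targM i k :=
  glueRight (D.j k) (D.q i k) (D.M k)

/-- The multicospan index whose multiequalizer is the glued sheaf. -/
noncomputable def index : MulticospanIndex (MulticospanShape.prod ι) X.Modules where
  left i := D.pushM i
  right b := D.targM b.1 b.2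
  fst b := D.legL b.1 b.2
  snd b := D.legR b.1 b.2

/-- The glued sheaf of modules. -/
noncomputable def glued : X.Modules := multiequalizer D.index

/-- The projection of the glued sheaf to the pushforward of `M i`. -/
noncomputable def π (i : ι) : D.glued ⟶ D.pushM i :=
  Multiequalizer.ι D.index i

lemma condition (i k : ι) : D.π i ≫ D.legL i k = D.π k ≫ D.legR i k :=
  Multiequalizer.condition D.index (i, k)

lemma isIso_legR_app (i k : ι) (W : X.Opens) (hW : W ≤ (D.j i).opensRange) :
    IsIso ((D.legR i k).app W) :=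
  isIso_glueRight_app (D.j i) (D.j k) (D.p i k) (D.q i k) (D.w i k) (D.M k) (D.hinter i k) W hW

lemma isIso_legL_app (i k : ι) (W : X.Opens) (hW : W ≤ (D.j k).opensRange) :
    IsIso ((D.legL i k).app W) :=
  isIso_glueLeft_app (D.j i) (D.j k) (D.p i k) (D.q i k) (D.w i k) (D.M i) (D.M k) (D.φ i k)
    (D.hinter i k) W hW

/-- The sectionwise transition map `Γ(M i, W ∩ Y i) ⟶ Γ(M k, W ∩ Y k)` for `W ⊆ Y i`,
"`s ↦ φ i k (s|W ∩ Y k)`". -/
noncomputable def trans (i k : ι) (W : X.Opens) (hW : W ≤ (D.j i).opensRange) :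
    (D.pushM i).presheaf.obj (.op W) ⟶ (D.pushM k).presheaf.obj (.op W) :=
  haveI := D.isIso_legR_app i k W hW
  (D.legL i k).app W ≫ inv ((D.legR i k).app W)

lemma trans_comp_legR (i k : ι) (W : X.Opens) (hW : W ≤ (D.j i).opensRange) :
    D.trans i k W hW ≫ (D.legR i k).app W = (D.legL i k).app W := by
  haveI := D.isIso_legR_app i k W hW
  simp only [trans, Category.assoc, IsIso.inv_hom_id, Category.comp_id]

lemma isIso_trans (i k : ι) (W : X.Opens) (hW : W ≤ (D.j i).opensRange)
    (hW' : W ≤ (D.j k).opensRange) : IsIso (D.trans i k W hW) := by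
  haveI := D.isIso_legR_app i k W hW
  haveI := D.isIso_legL_app i k W hW'
  unfold trans
  infer_instance

lemma trans_naturality (i k : ι) {W' W : X.Opens} (h : W' ≤ W) (hW : W ≤ (D.j i).opensRange) :
    D.trans i k W hW ≫ (D.pushM k).presheaf.map (homOfLE h).op =
      (D.pushM i).presheaf.map (homOfLE h).op ≫ D.trans i k W' (h.trans hW) := by
  haveI := D.isIso_legR_app i k W' (h.trans hW)
  rw [← cancel_mono ((D.legR i k).app W')]
  simp only [Category.assoc, trans_comp_legR]
  rw [hom_naturality (D.legR i k) (homOfLE h), ← Category.assoc, trans_comp_legR,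
    hom_naturality (D.legL i k) (homOfLE h)]

lemma trans_unique (i k : ι) (W : X.Opens) (hW : W ≤ (D.j i).opensRange)
    (t : (D.pushM i).presheaf.obj (.op W) ⟶ (D.pushM k).presheaf.obj (.op W))
    (ht : t ≫ (D.legR i k).app W = (D.legL i k).app W) : t = D.trans i k W hW := by
  haveI := D.isIso_legR_app i k W hW
  rw [← cancel_mono ((D.legR i k).app W), ht, trans_comp_legR]

lemma legR_app (i k : ι) (W : X.Opens) :
    (D.legR i k).app W =
      (D.M k).presheaf.map (homOfLE ((D.q i k).image_preimage_le ((D.j k) ⁻¹ᵁ W))).op := rfl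

lemma legL_app (i k : ι) (W : X.Opens) :
    (D.legL i k).app W =
      (D.M i).presheaf.map (homOfLE ((D.p i k).image_preimage_le ((D.j i) ⁻¹ᵁ W))).op ≫
        (D.φ i k).hom.app ((D.p i k) ⁻¹ᵁ (D.j i) ⁻¹ᵁ W) ≫
          ((restrictFunctor (D.q i k)).obj (D.M k)).presheaf.map
            (eqToHom (preimage_preimage_eq (D.j i) (D.j k) (D.p i k) (D.q i k) (D.w i k) W)).op :=
  rfl

/-- The cocycle condition, sectionwise on triple overlaps. -/
def Cocycle : Prop :=
  ∀ (i k l : ι) (W : X.Opens) (hi : W ≤ (D.j i).opensRange) (hk : W ≤ (D.j k).opensRange)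
    (_ : W ≤ (D.j l).opensRange),
    D.trans i k W hi ≫ D.trans k l W hk = D.trans i l W hi

variable {D} (hD : D.Cocycle)

include hD in
lemma trans_self (l : ι) (W : X.Opens) (hW : W ≤ (D.j l).opensRange) :
    D.trans l l W hW = 𝟙 _ := by
  exact eq_id_of_idem_of_isIso _ (D.isIso_trans l l W hW hW) (hD l l l W hW hW hW)

lemma isIso_targM_map (i k : ι) (W : X.Opens) :
    IsIso ((D.targM i k).presheaf.map
      (homOfLE (show W ⊓ (D.j i).opensRange ⊓ (D.j k).opensRange ≤ W from
        inf_le_left.trans inf_le_left)).op) := by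
  have h1 : (D.q i k) ''ᵁ (D.q i k) ⁻¹ᵁ (D.j k) ⁻¹ᵁ W ≤
      (D.q i k) ''ᵁ (D.q i k) ⁻¹ᵁ (D.j k) ⁻¹ᵁ
        (W ⊓ (D.j i).opensRange ⊓ (D.j k).opensRange) := by
    rw [Scheme.Hom.image_preimage_eq_opensRange_inf, Scheme.Hom.image_preimage_eq_opensRange_inf,
      opensRange_right (D.j i) (D.j k) (D.p i k) (D.q i k) (D.w i k) (D.hinter i k)]
    intro x hx
    exact ⟨hx.1, ⟨⟨hx.2, hx.1⟩, ⟨x, rfl⟩⟩⟩
  have h2 : (D.q i k) ''ᵁ (D.q i k) ⁻¹ᵁ (D.j k) ⁻¹ᵁ
      (W ⊓ (D.j i).opensRange ⊓ (D.j k).opensRange) ≤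
        (D.q i k) ''ᵁ (D.q i k) ⁻¹ᵁ (D.j k) ⁻¹ᵁ W :=
    (D.q i k).image_mono ((D.q i k).preimage_mono ((D.j k).preimage_mono
      (inf_le_left.trans inf_le_left)))
  exact isIso_presheaf_map_of_eq (D.M k) h2 h1

include hD in
/-- The transition maps out of `Γ(M l, W)` form a cone over the sections of the gluing
diagram, for `W ⊆ Y l`. -/
lemma trans_condition (l : ι) (W : X.Opens) (hW : W ≤ (D.j l).opensRange) (i k : ι) :
    D.trans l i W hW ≫ (D.legL i k).app W = D.trans l k W hW ≫ (D.legR i k).app W := by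
  have hW'W : W ⊓ (D.j i).opensRange ⊓ (D.j k).opensRange ≤ W := inf_le_left.trans inf_le_left
  have hW'l : W ⊓ (D.j i).opensRange ⊓ (D.j k).opensRange ≤ (D.j l).opensRange := hW'W.trans hW
  have hW'i : W ⊓ (D.j i).opensRange ⊓ (D.j k).opensRange ≤ (D.j i).opensRange :=
    inf_le_left.trans inf_le_right
  have hW'k : W ⊓ (D.j i).opensRange ⊓ (D.j k).opensRange ≤ (D.j k).opensRange := inf_le_right
  haveI := D.isIso_targM_map i k W
  exact cocycle_aux (rT := (D.targM i k).presheaf.map (homOfLE hW'W).op) inferInstance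
    (hom_naturality (D.legL i k) (homOfLE hW'W)).symm
    (hom_naturality (D.legR i k) (homOfLE hW'W)).symm
    (D.trans_naturality l i hW'W hW) (D.trans_naturality l k hW'W hW)
    (D.trans_comp_legR i k _ hW'i) (hD l i k _ hW'l hW'i hW'k)

lemma π_app_comp_trans (l i : ι) (W : X.Opens) (hW : W ≤ (D.j l).opensRange) :
    (D.π l).app W ≫ D.trans l i W hW = (D.π i).app W := by
  haveI := D.isIso_legR_app l i W hW
  rw [← cancel_mono ((D.legR l i).app W), Category.assoc, trans_comp_legR, ← Hom.comp_app,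
    ← Hom.comp_app, D.condition l i]

include hD in
/-- The projection of the glued sheaf to `(j l)_* (M l)` is an isomorphism on sections over
opens contained in the image of `j l`. -/
lemma isIso_π_app (l : ι) (W : X.Opens) (hW : W ≤ (D.j l).opensRange) :
    IsIso ((D.π l).app W) := by
  have hKF : IsLimit ((Multiequalizer.multifork D.index).map (sectionsFunctor W)) :=
    Multifork.isLimitMapOfPreserves _ (sectionsFunctor W) (limit.isLimit _)
  refine ⟨Multifork.IsLimit.lift hKF (fun i => D.trans l i W hW)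
    (fun b => D.trans_condition hD l W hW b.1 b.2), ?_, ?_⟩
  · refine Multifork.IsLimit.hom_ext hKF fun i => ?_
    exact (Category.assoc _ _ _).trans
      ((congrArg (fun f => (D.π l).app W ≫ f) (Multifork.IsLimit.fac hKF _ _ i)).trans
        ((D.π_app_comp_trans l i W hW).trans (Category.id_comp _).symm))
  · exact (Multifork.IsLimit.fac hKF (fun i => D.trans l i W hW)
      (fun b => D.trans_condition hD l W hW b.1 b.2) l).trans (trans_self hD l W hW)

include hD in
lemma isIso_restrict_π (l : ι) : IsIso ((restrictFunctor (D.j l)).map (D.π l)) := by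
  rw [Hom.isIso_iff_isIso_app]
  intro V
  exact D.isIso_π_app hD l ((D.j l) ''ᵁ V) ((D.j l).image_le_opensRange V)

/-- The restriction of the glued sheaf to `Y l` is `M l`. -/
noncomputable def gluedIso (l : ι) : (restrictFunctor (D.j l)).obj D.glued ≅ D.M l :=
  haveI := isIso_restrict_π hD l
  asIso ((restrictFunctor (D.j l)).map (D.π l)) ≪≫
    asIso ((restrictAdjunction (D.j l)).counit.app (D.M l))

lemma gluedIso_hom_app (l : ι) (V : (D.Y l).Opens) :
    (gluedIso hD l).hom.app V =
      (D.π l).app (D.j l ''ᵁ V) ≫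
        (D.M l).presheaf.map (eqToHom ((D.j l).preimage_image_eq V).symm).op := rfl

/-- The isomorphisms `glued|Y i ≅ M i` are compatible with the transition isomorphisms. -/
theorem glued_compat (i k : ι) :
    (restrictFunctor (D.p i k)).map (gluedIso hD i).hom ≫ (D.φ i k).hom =
      (restrictOverlapIso (D.j i) (D.j k) (D.p i k) (D.q i k) (D.w i k) D.glued).hom ≫
        (restrictFunctor (D.q i k)).map (gluedIso hD k).hom := by
  refine Scheme.Modules.hom_ext _ _ fun V => ?_
  rw [Hom.comp_app, Hom.comp_app, restrictOverlapIso_hom_app]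
  change (gluedIso hD i).hom.app (D.p i k ''ᵁ V) ≫ (D.φ i k).hom.app V =
    D.glued.presheaf.map
        (eqToHom (image_image_eq (D.j i) (D.j k) (D.p i k) (D.q i k) (D.w i k) V)).op ≫
      (gluedIso hD k).hom.app (D.q i k ''ᵁ V)
  rw [gluedIso_hom_app, gluedIso_hom_app]
  exact compat_app_of_condition (D.j i) (D.j k) (D.p i k) (D.q i k) (D.w i k) (D.M i) (D.M k)
    (D.φ i k) _ _ (D.condition i k) V

/-- **G2, general covers (restriction-functor form).**  Gluing data satisfying the cocycle
condition glue to a sheaf of modules on `X`. -/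
theorem exists_glued (hD : D.Cocycle) :
    ∃ (N : X.Modules) (e : ∀ i, (restrictFunctor (D.j i)).obj N ≅ D.M i),
      ∀ i k, (restrictFunctor (D.p i k)).map (e i).hom ≫ (D.φ i k).hom =
        (restrictOverlapIso (D.j i) (D.j k) (D.p i k) (D.q i k) (D.w i k) N).hom ≫
          (restrictFunctor (D.q i k)).map (e k).hom :=
  ⟨D.glued, gluedIso hD, glued_compat hD⟩

include hD in
/-- **G2, general covers (pullback form, existence only).** -/
theorem exists_glued_pullback :
    ∃ (N : X.Modules), ∀ i, Nonempty ((Scheme.Modules.pullback (D.j i)).obj N ≅ D.M i) :=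
  ⟨D.glued, fun i => ⟨(restrictFunctorIsoPullback (D.j i)).symm.app _ ≪≫ gluedIso hD i⟩⟩

end ModGlueData

section Opens

variable {X : Scheme.{u}} {ι : Type u} (U : ι → X.Opens) (M : ∀ i, (U i).toScheme.Modules)
  (φ : ∀ i k, (restrictFunctor (X.homOfLE (inf_le_left : U i ⊓ U k ≤ U i))).obj (M i) ≅
    (restrictFunctor (X.homOfLE (inf_le_right : U i ⊓ U k ≤ U k))).obj (M k))

/-- Gluing data attached to a family of opens of `X`. -/
noncomputable def ModGlueData.ofOpens : ModGlueData X ι where
  Y i := (U i).toScheme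
  j i := (U i).ι
  isOpenImmersion_j _ := inferInstance
  Y₂ i k := (U i ⊓ U k).toScheme
  p _ _ := X.homOfLE inf_le_left
  q _ _ := X.homOfLE inf_le_right
  isOpenImmersion_p _ _ := inferInstance
  isOpenImmersion_q _ _ := inferInstance
  w i k := opens_w (U i) (U k)
  hinter i k := opens_hinter (U i) (U k)
  M := M
  φ := φ

/-- **G2 for a family of opens of `X`** (cocycle condition sectionwise, see
`ModGlueData.Cocycle`, `ModGlueData.trans`). -/
theorem exists_glued_opens (hD : (ModGlueData.ofOpens U M φ).Cocycle) :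
    ∃ (N : X.Modules) (e : ∀ i, (restrictFunctor (U i).ι).obj N ≅ M i),
      ∀ i k, (restrictFunctor (X.homOfLE (inf_le_left : U i ⊓ U k ≤ U i))).map (e i).hom ≫
          (φ i k).hom =
        (restrictOverlapIso (U i).ι (U k).ι _ _ (opens_w (U i) (U k)) N).hom ≫
          (restrictFunctor (X.homOfLE (inf_le_right : U i ⊓ U k ≤ U k))).map (e k).hom :=
  ModGlueData.exists_glued hD

end Opens

end Fermat.Agent.S25.H866
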